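import Fermat.Agent.LP.PL.Form.Tower2
import Fermat.Agent.LP.PL.Abs.Main
import Fermat.Agent.GT.Brg.Defs

/-!
# LP-PL-LOC (S44): the cover `FF L N → F1 L N z1` as a homomorphism of `A ∩ L`-algebras

Shared by the parts (B) (existence of the Artin-Schreier generator at the nodes) and (D).
-/

set_option autoImplicit false
set_option synthInstance.maxHeartbeats 400000

noncomputable section

namespace Fermat.Agent.LP.PL

open Fermat.Agent.GR Fermat.Agent.GT.Brg ModularCurve

/-- the inclusion `FF L N → F1 L N z1` over `R = A ∩ L`. -/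
def phiL (A : ValuationSubring Qbar) (L : IntermediateField ℚ Qbar) (N : ℕ)
    (z1 : LaurentSeries Qbar) : FF L N →ₐ[RL A L] F1 L N z1 :=
  (incL L N z1).restrictScalars (RL A L)

@[simp] theorem phiL_apply (A : ValuationSubring Qbar) (L : IntermediateField ℚ Qbar) (N : ℕ)
    (z1 : LaurentSeries Qbar) (f : FF L N) : phiL A L N z1 f = incL L N z1 f := rfl

/-- `t` is an Artin-Schreier generator of the cover `F1 L N z1 / FF L N` over the subalgebra `B` (the local ring
of a node). -/
def ASGenL (A : ValuationSubring Qbar) (L : IntermediateField ℚ Qbar) (N : ℕ)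
    (z1 : LaurentSeries Qbar) (p : ℕ) (gL : F1 L N z1 ≃ₐ[L] F1 L N z1)
    (B : Subalgebra (RL A L) (FF L N)) (t : F1 L N z1) : Prop :=
  @ASGen B (F1 L N z1) _ _ (algBE (phiL A L N z1) B) p gL.toRingEquiv t

end Fermat.Agent.LP.PL
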