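import Fermat.Agent.LP.PL.Form.Main
import Fermat.Agent.LP.Iface
import Fermat.Agent.GT.Brg.Defs
import Fermat.Agent.GR.S.R.Gauss
import Fermat.Agent.GR.D.HorizJ

/-!
# LP-PL-LOC (S44), part (D), file `Eta`: `η = ε p ^ (p k)` from (PEU); cofinality of the powers of `p`
-/

set_option autoImplicit false
set_option synthInstance.maxHeartbeats 400000

noncomputable section

namespace Fermat.Agent.LP.PL

open Fermat.Agent.GR Fermat.Agent.GT Fermat.Agent.GT.Brg ModularCurve IntermediateField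

variable {p N : ℕ} {ζ : Qbar} {L : IntermediateField ℚ Qbar} {u1 u2 z1 : LaurentSeries Qbar}
  {g : F1Q N z1 ≃ₐ[Qbar] F1Q N z1} {gL : F1 L N z1 ≃ₐ[L] F1 L N z1} {Y : F1Q N z1}
  {U H : F1 L N z1} {η : L} {θ : Qbar} {A : ValuationSubring Qbar}

/-- an element of the inertia group fixes `L` pointwise. -/
theorem Eta_mem_fixingSubgroup (hL : InertFixed A L) {σ : Qbar ≃ₐ[ℚ] Qbar}
    (hσ : σ ∈ A.inertiaSubgroupIn ℚ) : σ ∈ L.fixingSubgroup := by
  rw [IntermediateField.mem_fixingSubgroup_iff]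
  intro x hx
  exact hL σ hσ ⟨x, hx⟩

/-- (PEU) applied to `y = θ`: `θ ≠ 0` (`θ ^ p = η ≠ 0`), `θ ^ p = η ∈ L` is fixed by inertia, and `θ` is fixed by the
`σ` in the inertia group which fix the class of `u2` (`FormOut.θ_fix`, `Eta_mem_fixingSubgroup`). -/
theorem Eta_valuation (F : FormOut p N ζ L u1 u2 z1 g gL Y U H η θ) (hL : InertFixed A L)
    (hpeu : PeuAt N p A u1 u2) : ∃ k : ℤ, A.valuation θ = A.valuation (p : Qbar) ^ k := by
  by_cases hθ : θ = 0
  · by_cases hp : p = 0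
    · subst hp
      refine ⟨1, ?_⟩
      rw [hθ]
      simp
    · exfalso
      have h1 := F.θ_pow
      rw [hθ, zero_pow hp] at h1
      exact F.η_ne ((map_eq_zero (algebraMap L Qbar)).1 h1.symm)
  · refine hpeu θ hθ (fun σ hσ => ?_) (fun σ hσ _ _ h2 => ?_)
    · rw [F.θ_pow]
      exact hL σ hσ η
    · exact F.θ_fix σ (Eta_mem_fixingSubgroup hL hσ) h2

/-- `ε := η / p ^ (p k)` has valuation `1` (`θ ^ p = η`), so `ε` and `ε⁻¹` lie in `A ∩ L`
(`ValuationSubring.valuation_le_one_iff`, `ValuationSubring.mem_comap`, `map_div₀`, `map_zpow₀`, `zpow_mul`). -/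
theorem eta_eq_of_peu (hp : p ≠ 0) (F : FormOut p N ζ L u1 u2 z1 g gL Y U H η θ)
    (hL : InertFixed A L) (hpeu : PeuAt N p A u1 u2) :
    ∃ (k : ℤ) (ε ε' : RL A L), ε * ε' = 1 ∧ η = (ε : L) * (p : L) ^ ((p : ℤ) * k) := by
  obtain ⟨k, hk⟩ := Eta_valuation F hL hpeu
  have hpQ : (p : Qbar) ≠ 0 := Nat.cast_ne_zero.2 hp
  have hpL : (p : L) ≠ 0 := Nat.cast_ne_zero.2 hp
  have hvp : A.valuation (p : Qbar) ≠ 0 := (Valuation.ne_zero_iff _).2 hpQ
  have hve : A.valuation (algebraMap L Qbar (η / (p : L) ^ ((p : ℤ) * k))) = 1 := by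
    rw [map_div₀, map_zpow₀, map_natCast, map_div₀, map_zpow₀, ← F.θ_pow, map_pow, hk,
      ← zpow_natCast, ← zpow_mul, mul_comm k, div_self]
    exact zpow_ne_zero _ hvp
  have hve' : A.valuation (algebraMap L Qbar (η / (p : L) ^ ((p : ℤ) * k))⁻¹) = 1 := by
    rw [map_inv₀, map_inv₀, hve, inv_one]
  have he0 : η / (p : L) ^ ((p : ℤ) * k) ≠ 0 := div_ne_zero F.η_ne (zpow_ne_zero _ hpL)
  refine ⟨k, ⟨η / (p : L) ^ ((p : ℤ) * k), ?_⟩, ⟨(η / (p : L) ^ ((p : ℤ) * k))⁻¹, ?_⟩, ?_, ?_⟩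
  · rw [ValuationSubring.mem_comap, ← A.valuation_le_one_iff, hve]
  · rw [ValuationSubring.mem_comap, ← A.valuation_le_one_iff, hve']
  · exact Subtype.ext (mul_inv_cancel₀ he0)
  · show η = η / (p : L) ^ ((p : ℤ) * k) * (p : L) ^ ((p : ℤ) * k)
    rw [div_mul_cancel₀ _ (zpow_ne_zero _ hpL)]

theorem Eta_mem_of_isIntegral (A : ValuationSubring Qbar) {x : Qbar} (hx : IsIntegral ℤ x) :
    x ∈ A := by
  have h1 : IsIntegral A x := hx.tower_top
  obtain ⟨y, hy⟩ := IsIntegrallyClosed.isIntegral_iff.1 h1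
  rw [← hy]
  exact y.2

theorem Eta_inv_mem (hA : A.LiesOverPrime p) (n : ℤ) (h : IsCoprime n (p : ℤ)) :
    ((n : Qbar))⁻¹ ∈ A := by
  obtain ⟨a, b, hab⟩ := h
  have e : (1 : Qbar) = (a : Qbar) * n + (b : Qbar) * (p : Qbar) := by exact_mod_cast hab.symm
  by_contra hcon
  have hv : 1 < A.valuation ((n : Qbar))⁻¹ := by
    rw [← A.valuation_le_one_iff, not_le] at hcon
    exact hcon
  have hn0 : (n : Qbar) ≠ 0 := by
    intro h0
    rw [h0, inv_zero, map_zero] at hv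
    exact absurd hv (by simp)
  have hvn : A.valuation (n : Qbar) < 1 := by
    rw [map_inv₀] at hv
    exact (one_lt_inv₀ (zero_lt_iff.2 ((Valuation.ne_zero_iff _).2 hn0))).1 hv
  have hvp : A.valuation (p : Qbar) < 1 := (ValuationSubring.mem_nonunits_iff A).1 hA
  have h1 : A.valuation ((a : Qbar) * n) < 1 := by
    rw [map_mul]
    exact lt_of_le_of_lt (mul_le_of_le_one_left' ((A.valuation_le_one_iff _).2 (intCast_mem A a))) hvn
  have h2 : A.valuation ((b : Qbar) * (p : Qbar)) < 1 := by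
    rw [map_mul]
    exact lt_of_le_of_lt (mul_le_of_le_one_left' ((A.valuation_le_one_iff _).2 (intCast_mem A b))) hvp
  have h3 : A.valuation (1 : Qbar) < 1 := by
    rw [e]
    exact lt_of_le_of_lt (A.valuation.map_add _ _) (max_lt h1 h2)
  rw [map_one] at h3
  exact lt_irrefl _ h3

/-- the powers of `p` are cofinal in the value group of `A`: `c` is a root of a nonzero polynomial with integer
coefficients `∑ a_i X ^ i`, `a_n ≠ 0`; `a_n c` is integral over `ℤ`, hence lies in `A` (`Loc2_mem_of_isIntegral`-type argument: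
`A` is integrally closed and contains `ℤ`); `a_n = p ^ m a'` with `p ∤ a'`, and `a'` is a unit of `A` (Bezout:
`x a' + y p = 1`, `p ∈ A.nonunits`).  (Or: `IsAlgebraic.exists_integral_multiple`.) -/
theorem arch_A (hp : p.Prime) (hA : A.LiesOverPrime p) (c : Qbar) :
    ∃ n : ℕ, (p : Qbar) ^ n * c ∈ A := by
  have halg : IsAlgebraic ℤ c :=
    (IsFractionRing.isAlgebraic_iff ℤ ℚ Qbar).2 (Algebra.IsAlgebraic.isAlgebraic c)
  obtain ⟨y, hy0, hy⟩ := halg.exists_integral_multiple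
  have hfin : FiniteMultiplicity (p : ℤ) y := by
    rw [Int.finiteMultiplicity_iff]
    refine ⟨?_, hy0⟩
    rw [Int.natAbs_natCast]
    exact hp.one_lt.ne'
  obtain ⟨a, ha, hpa⟩ := hfin.exists_eq_pow_mul_and_not_dvd
  refine ⟨multiplicity (p : ℤ) y, ?_⟩
  have hcop : IsCoprime a (p : ℤ) :=
    ((Nat.prime_iff_prime_int.1 hp).coprime_iff_not_dvd.2 hpa).symm
  have h1 := Eta_inv_mem hA a hcop
  have h2 := Eta_mem_of_isIntegral A hy
  have ha0 : (a : Qbar) ≠ 0 := by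
    intro h0
    have : a = 0 := by exact_mod_cast h0
    apply hpa
    rw [this]
    exact dvd_zero _
  have e : (p : Qbar) ^ multiplicity (p : ℤ) y * c = ((a : Qbar))⁻¹ * (y • c) := by
    rw [zsmul_eq_mul]
    conv_rhs => rw [ha]
    push_cast
    field_simp
  rw [e]
  exact A.mul_mem _ _ h1 h2

/-- the powers of `p` are cofinal for the Gauss valuation: `y = κ * unit` (`IsGaussRing.gaussData`, field `norm`; the
instance `IsFF Qb (FF Qb N)` is `Fermat.Agent.S17.DIV.isFF_FF`-like or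
`⟨⟨_, transcendental, finiteDimensional⟩⟩`, see `LP/Old/Red.lean`, `GR/S/R/Main.lean:53`), `p ^ n * κ ∈ A` (`arch_A`),
`GaussData.const_mem`. -/
theorem arch_gauss [NeZero N] (hp : p.Prime) (hA : A.LiesOverPrime p)
    {𝒪 : ValuationSubring (FF Qbar N)} (h𝒪 : GR.S.R.IsGaussRing A N 𝒪) (y : FF Qbar N) :
    ∃ n : ℕ, (p : FF Qbar N) ^ n * y ∈ 𝒪 := by
  by_cases hy : y = 0
  · exact ⟨0, by rw [hy, mul_zero]; exact zero_mem 𝒪⟩
  haveI : Fermat.Agent.S17.FF.IsFF Qbar (FF Qbar N) :=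
    ⟨⟨_, GR.C.transcendental_jF Qbar N,
      GR.D.finiteDimensional_FF_of_transcendental Qbar N (GR.C.transcendental_jF Qbar N)⟩⟩
  have G := h𝒪.gaussData
  obtain ⟨κ, hκ, h1, -⟩ := G.norm y hy
  obtain ⟨n, hn⟩ := arch_A hp hA κ
  refine ⟨n, ?_⟩
  have h2 := (G.const_mem _).2 hn
  have hκ' : algebraMap Qbar (FF Qbar N) κ ≠ 0 := (map_ne_zero _).2 hκ
  have e : (p : FF Qbar N) ^ n * y =
      algebraMap Qbar (FF Qbar N) ((p : Qbar) ^ n * κ) * (y / algebraMap Qbar (FF Qbar N) κ) := by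
    rw [map_mul, map_pow, map_natCast]
    field_simp
  rw [e]
  exact 𝒪.mul_mem _ _ h2 h1

end Fermat.Agent.LP.PL
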