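import Fermat.Agent.LP.PL.Loc2.NodeAbs
import Fermat.Agent.LP.PL.Loc2.Defs
import Fermat.Agent.LP.PL.Loc2.Eta
import Fermat.Agent.LP.PL.Loc.Defs
import Fermat.Agent.LP.PL.Form.Cert3

/-!
# LP-PL-LOC (S44), part (D), file `Main`: the concrete instance of the node theorem
-/

set_option autoImplicit false
set_option synthInstance.maxHeartbeats 400000

noncomputable section

namespace Fermat.Agent.LP.PL

open Fermat.Agent.GR Fermat.Agent.GR.E Fermat.Agent.GR.D.Vert Fermat.Agent.GS Fermat.Agent.GT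
  Fermat.Agent.GT.Brg Fermat.Agent.C36.Unit ModularCurve IntermediateField

variable {p N : ℕ} {ζ : Qbar} {L : IntermediateField ℚ Qbar} {u1 z1 : LaurentSeries Qbar}
  {g : F1Q N z1 ≃ₐ[Qbar] F1Q N z1} {gL : F1 L N z1 ≃ₐ[L] F1 L N z1} {Y : F1Q N z1}
  {U H : F1 L N z1} {η : L} {θ : Qbar} {A : ValuationSubring Qbar}

/-- the square `FF L N → F1 L N z1 → F1Q`, `FF L N → FF Q̄ N → F1Q` commutes. -/
theorem Main_square (f : FF L N) :
    incF1 N z1 (toQb L N f) = toQ L N z1 (phiL A L N z1 f) := rfl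

set_option maxHeartbeats 4000000 in
/-- the data which do not depend on the node. -/
theorem coverBase_of_form [NeZero N] [FiniteDimensional ℚ L] [IsDiscreteValuationRing (RL A L)]
    {u2 : LaurentSeries Qbar} (hL : GT.InertFixed A L)
    (h : PairData p N ζ L u1 u2) (F : FormOut p N ζ L u1 u2 z1 g gL Y U H η θ)
    (hpeu : PeuAt N p A u1 u2) {𝒪₁ 𝒪₂ : ValuationSubring (FF L N)}
    (hirr : Irreducible ((p : ℕ) : RL A L)) (hG₁ : GaussRing ((p : ℕ) : RL A L) 𝒪₁)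
    (hG₂ : GaussRing ((p : ℕ) : RL A L) 𝒪₂) :
    CoverBase ((p : ℕ) : RL A L) p 𝒪₁ 𝒪₂ (phiL A L N z1) gL.toRingEquiv U H
      (algebraMap L (F1 L N z1) η) := by
  obtain ⟨h1, h2, h3⟩ := deckL_inputs h.toLineData F.root F.deck F.deckL
  obtain ⟨k, ε, ε', hεε', hη⟩ := eta_eq_of_peu h.prime.ne_zero F hL hpeu
  exact
    { irr := hirr
      prime := h.prime
      hϖp := map_natCast _ _
      gauss₁ := hG₁
      gauss₂ := hG₂
      hgφ := h1
      hfix := h2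
      hgp := h3
      U_ne := F.U_ne
      div := divisibleAtPlaces_U h F (RL A L)
      deck := F.deck_U
      η_eq := ⟨k, ε, ε', hεε', by
        rw [hη, map_mul, map_zpow₀, map_natCast]
        rfl⟩ }

set_option maxHeartbeats 8000000 in
/-- **THE NODE THEOREM**: the Picard-Lefschetz formula at all the nodes of the chart of `h₂`, from the
Artin-Schreier generators. -/
theorem nodeOut_of_asGen {p N0 : ℕ} [NeZero (p * N0)] {A : ValuationSubring Qb}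
    {L : IntermediateField ℚ Qb} [FiniteDimensional ℚ L] [IsDiscreteValuationRing (RL A L)]
    (hr0 : BaseCase.two.r ∣ N0) (hA : A.LiesOverPrime p) (hL : GT.InertFixed A L)
    {𝒪 : ValuationSubring (FF Qb (p * N0))} (h𝒪 : GR.S.R.IsGaussRing A (p * N0) 𝒪)
    {ζ : Qb} {u1 z1 : LaurentSeries Qb} {g : F1Q (p * N0) z1 ≃ₐ[Qb] F1Q (p * N0) z1}
    {gL : F1 L (p * N0) z1 ≃ₐ[L] F1 L (p * N0) z1} {Y : F1Q (p * N0) z1}
    {U H : F1 L (p * N0) z1} {η : L} {θ : Qb} {u2 : FF Qb (p * N0)}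
    (h : PairData p (p * N0) ζ L u1 u2)
    (F : FormOut p (p * N0) ζ L u1 u2 z1 g gL Y U H η θ)
    (hpeu : PeuAt (p * N0) p A u1 u2)
    (hirr : Irreducible ((p : ℕ) : RL A L))
    (hG₁ : GaussRing ((p : ℕ) : RL A L) (gaussO (RL A L) (p * N0)))
    (hG₂ : GaussRing ((p : ℕ) : RL A L) (Val.Ozero' (RL A L) p N0))
    (hC : NodalChart ((p : ℕ) : RL A L) (gaussO (RL A L) (p * N0)) (Val.Ozero' (RL A L) p N0)
      (chL p N0 A L hr0 1))
    (h𝒪₁ : ∀ f, toQb L (p * N0) f ∈ 𝒪 ↔ f ∈ gaussO (RL A L) (p * N0))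
    (hgen : ∀ (𝔪 : Ideal (chL p N0 A L hr0 1)) [𝔪.IsPrime], 𝔪.IsMaximal →
      vert ((p : ℕ) : RL A L) (gaussO (RL A L) (p * N0)) (chL p N0 A L hr0 1) ≤ 𝔪 →
      vert ((p : ℕ) : RL A L) (Val.Ozero' (RL A L) p N0) (chL p N0 A L hr0 1) ≤ 𝔪 →
      ∃ t, ASGenL A L (p * N0) z1 p gL (locAt (chL p N0 A L hr0 1) 𝔪) t) :
    NodeOut p N0 A L hr0 𝒪 u2 := by
  have B := coverBase_of_form hL h F hpeu hirr hG₁ hG₂
  obtain ⟨c, hc⟩ := IsAlgClosed.exists_pow_nat_eq (p : Qb) h.prime.pos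
  have hchar : CharZero (F1Q (p * N0) z1) :=
    charZero_of_injective_algebraMap (algebraMap Qb (F1Q (p * N0) z1)).injective
  obtain ⟨r0, hr0'⟩ := node_pdiv_abs B (toQb L (p * N0)) (toQ L (p * N0) z1)
    (incF1 (p * N0) z1 : FF Qb (p * N0) →+* F1Q (p * N0) z1) (fun f => rfl) g.toRingEquiv
    (fun e => (F.deckL e).symm) (fun x => IsDeck.iterate_p h.root F.deck x)
    (fun x hx => ⟨⟨x, (F.deck.fixed_iff h.toLineData F.root x).1 hx⟩, rfl⟩)
    (c₀ := algebraMap Qb (FF Qb (p * N0)) c) (by rw [← map_pow, hc, map_natCast]) (u2 := u2)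
    F.Y_ne (Subtype.ext F.U_eq) h𝒪₁ (arch_gauss h.prime hA h𝒪)
  refine ⟨r0, fun 𝔪 _ hmax h1 h2 X₁ X₂ G hX₁ hX₂ hG hmul V hV hB => ?_⟩
  exact hr0' _ 𝔪 X₁ X₂ G
    { chart := hC
      max := hmax
      le₁ := h1
      le₂ := h2
      hX₁ := hX₁
      hX₂ := hX₂
      hG := hG
      hmul := hmul
      gen := hgen 𝔪 hmax h1 h2 } V hV hB

end Fermat.Agent.LP.PL
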