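import Fermat.Agent.LP.PL.Loc2.Val

/-!
# LP-PL-LOC (S44), part (D), file `Ord` (Mathlib only): the order of an element at a valuation subring
whose maximal ideal is generated by `p`
-/

set_option autoImplicit false

namespace Fermat.Agent.LP.PL

variable {E : Type*} [Field E]

/-- `u = p ^ β * unit` at `V`. -/
def OrdAt (V : ValuationSubring E) (p : ℕ) (u : E) (β : ℤ) : Prop :=
  u / (p : E) ^ β ∈ V ∧ (u / (p : E) ^ β)⁻¹ ∈ V

variable {V : ValuationSubring E} {p : ℕ} {u u' : E} {β β' : ℤ}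

theorem OrdAt.mul (hp0 : (p : E) ≠ 0) (h : OrdAt V p u β) (h' : OrdAt V p u' β') :
    OrdAt V p (u * u') (β + β') := by
  have e : u * u' / (p : E) ^ (β + β') = (u / (p : E) ^ β) * (u' / (p : E) ^ β') := by
    rw [zpow_add₀ hp0, div_mul_div_comm]
  unfold OrdAt
  rw [e, mul_inv]
  exact ⟨mul_mem h.1 h'.1, mul_mem h.2 h'.2⟩

theorem OrdAt.inv (h : OrdAt V p u β) : OrdAt V p u⁻¹ (-β) := by
  have e : u⁻¹ / (p : E) ^ (-β) = (u / (p : E) ^ β)⁻¹ := by
    rw [zpow_neg, inv_div, div_inv_eq_mul, div_eq_mul_inv, mul_comm]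
  unfold OrdAt
  rw [e, inv_inv]
  exact ⟨h.2, h.1⟩

theorem OrdAt.div (hp0 : (p : E) ≠ 0) (h : OrdAt V p u β) (h' : OrdAt V p u' β') :
    OrdAt V p (u / u') (β - β') := by
  rw [div_eq_mul_inv, sub_eq_add_neg]
  exact h.mul hp0 h'.inv

theorem OrdAt.pow (h : OrdAt V p u β) (n : ℕ) : OrdAt V p (u ^ n) (n * β) := by
  have e : u ^ n / (p : E) ^ ((n : ℤ) * β) = (u / (p : E) ^ β) ^ n := by
    rw [div_pow, ← zpow_natCast ((p : E) ^ β) n, ← zpow_mul, mul_comm]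
  unfold OrdAt
  rw [e, ← inv_pow]
  exact ⟨pow_mem h.1 n, pow_mem h.2 n⟩

theorem ordAt_self_zpow (hp0 : (p : E) ≠ 0) (k : ℤ) : OrdAt V p ((p : E) ^ k) k := by
  unfold OrdAt
  rw [div_self (zpow_ne_zero k hp0), inv_one]
  exact ⟨one_mem V, one_mem V⟩

/-- a negative power of a nonunit is not in `V`. -/
theorem Ord_zpow_not_mem (hpV : (p : E) ∈ V.nonunits) (hp0 : (p : E) ≠ 0) {k : ℤ} (hk : k < 0) :
    (p : E) ^ k ∉ V := by
  intro h
  obtain ⟨n, hn⟩ : ∃ n : ℕ, k = -((n : ℤ) + 1) := ⟨(-k - 1).toNat, by omega⟩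
  rw [hn, zpow_neg] at h
  have h1 : (p : E) ^ ((n : ℤ) + 1) = (p : E) ^ (n + 1) := by
    rw [← zpow_natCast]
    push_cast
    rfl
  rw [h1] at h
  have h2 : (p : E) ^ (n + 1) ∉ V.nonunits :=
    Loc2_not_mem_nonunits (pow_ne_zero _ hp0) h
  apply h2
  rw [ValuationSubring.mem_nonunits_iff] at hpV ⊢
  rw [map_pow]
  exact pow_lt_one₀ zero_le hpV (Nat.succ_ne_zero n)

theorem OrdAt.unique (hpV : (p : E) ∈ V.nonunits) (hp0 : (p : E) ≠ 0) (hu : u ≠ 0)
    (h : OrdAt V p u β) (h' : OrdAt V p u β') : β = β' := by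
  have e1 : (p : E) ^ (β - β') = (u / (p : E) ^ β') * (u / (p : E) ^ β)⁻¹ := by
    have h1 := zpow_ne_zero β hp0
    have h2 := zpow_ne_zero β' hp0
    rw [zpow_sub₀ hp0]
    field_simp
  have e2 : (p : E) ^ (β' - β) = (u / (p : E) ^ β) * (u / (p : E) ^ β')⁻¹ := by
    have h1 := zpow_ne_zero β hp0
    have h2 := zpow_ne_zero β' hp0
    rw [zpow_sub₀ hp0]
    field_simp
  have m1 : (p : E) ^ (β - β') ∈ V := by
    rw [e1]
    exact mul_mem h'.1 h.2
  have m2 : (p : E) ^ (β' - β) ∈ V := by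
    rw [e2]
    exact mul_mem h.1 h'.2
  by_contra hne
  rcases lt_or_gt_of_ne hne with hlt | hlt
  · exact Ord_zpow_not_mem hpV hp0 (by omega) m1
  · exact Ord_zpow_not_mem hpV hp0 (by omega) m2

/-- transport along an automorphism. -/
theorem ordAt_comap (σ : E ≃+* E) :
    OrdAt (V.comap (σ : E →+* E)) p u β ↔ OrdAt V p (σ u) β := by
  unfold OrdAt
  rw [ValuationSubring.mem_comap, ValuationSubring.mem_comap]
  have e : (σ : E →+* E) (u / (p : E) ^ β) = σ u / (p : E) ^ β := by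
    rw [map_div₀, map_zpow₀, map_natCast]
    rfl
  rw [map_inv₀, e]

/-- THE KEY: if the maximal ideal of `V` is generated by `p`, the order of a `p`-th power is divisible
by `p`.  (`m = p q + s`, `0 ≤ s < p`; `K' := K / p ^ q`, `K' ^ p = p ^ s * unit`.  If `0 < s` then `K' ^ p` is a
nonunit, so `K'` is a nonunit (`Loc2_mem_nonunits_of_pow`), so `K' / p ∈ V`, so
`K' ^ p / p ^ p = p ^ (s - p) * unit ∈ V`, so `p ^ (s - p) ∈ V`: contradiction with `Ord_zpow_not_mem`.) -/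
theorem dvd_of_ordAt_pow (hp : 0 < p) (hpV : (p : E) ∈ V.nonunits) (hp0 : (p : E) ≠ 0)
    (hunif : ∀ e : E, e ∈ V.nonunits → e / (p : E) ∈ V) {K : E} (hK : K ≠ 0) {m : ℤ}
    (h : OrdAt V p (K ^ p) m) : (p : ℤ) ∣ m := by
  by_contra hnd
  have hp' : (0 : ℤ) < p := by exact_mod_cast hp
  have hs0 : 0 < m % p := (Int.emod_pos_of_not_dvd hnd).resolve_left hp'.ne'
  have hsp : m % p < p := Int.emod_lt_of_pos m hp'
  have hm : (p : ℤ) * (m / p) + m % p = m := Int.mul_ediv_add_emod m p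
  set q : ℤ := m / p with hq
  obtain ⟨n, hn⟩ : ∃ n : ℕ, m % p = (n : ℤ) + 1 := ⟨(m % p - 1).toNat, by omega⟩
  set w : E := K ^ p / (p : E) ^ m with hw
  have hw0 : w ≠ 0 := div_ne_zero (pow_ne_zero p hK) (zpow_ne_zero m hp0)
  have e1 : (K / (p : E) ^ q) ^ p = (p : E) ^ (n + 1) * w := by
    have h1 : (p : E) ^ m = ((p : E) ^ q) ^ p * (p : E) ^ (n + 1) := by
      rw [← zpow_natCast ((p : E) ^ q) p, ← zpow_mul, ← zpow_natCast (p : E) (n + 1),
        ← zpow_add₀ hp0]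
      congr 1
      push_cast
      rw [← hn, mul_comm q]
      exact hm.symm
    have h2 := zpow_ne_zero q hp0
    rw [hw, h1, div_pow]
    field_simp
  have hnu : (K / (p : E) ^ q) ^ p ∈ V.nonunits := by
    rw [e1, ValuationSubring.mem_nonunits_iff, map_mul, map_pow]
    have h1 : V.valuation (p : E) ^ (n + 1) < 1 :=
      pow_lt_one₀ zero_le ((ValuationSubring.mem_nonunits_iff V).1 hpV) (Nat.succ_ne_zero n)
    have h2 : V.valuation w ≤ 1 := (V.valuation_le_one_iff w).2 h.1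
    calc V.valuation (p : E) ^ (n + 1) * V.valuation w ≤ V.valuation (p : E) ^ (n + 1) * 1 :=
          mul_le_mul_of_nonneg_left h2 zero_le
      _ < 1 := by rwa [mul_one]
  have h3 : K / (p : E) ^ q / (p : E) ∈ V := hunif _ (Loc2_mem_nonunits_of_pow hnu)
  have h4 : (p : E) ^ ((n : ℤ) + 1 - p) = (K / (p : E) ^ q / (p : E)) ^ p * w⁻¹ := by
    rw [div_pow _ (p : E), e1, zpow_sub₀ hp0, zpow_natCast]
    have h5 : (p : E) ^ ((n : ℤ) + 1) = (p : E) ^ (n + 1) := by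
      rw [← zpow_natCast]
      push_cast
      rfl
    rw [h5]
    have h6 := pow_ne_zero p hp0
    field_simp
  refine Ord_zpow_not_mem hpV hp0 (k := (n : ℤ) + 1 - p) (by omega) ?_
  rw [h4]
  exact mul_mem (pow_mem h3 p) h.2

/-- `u' = c * K ^ p * u`, `ord c = p k`: the orders of `u` and `u'` are congruent modulo `p`. -/
theorem OrdAt.dvd_sub (hp : 0 < p) (hpV : (p : E) ∈ V.nonunits) (hp0 : (p : E) ≠ 0)
    (hunif : ∀ e : E, e ∈ V.nonunits → e / (p : E) ∈ V) {c K : E} {k : ℤ} (hu : u ≠ 0)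
    (hc0 : c ≠ 0) (hK : K ≠ 0)
    (hc : OrdAt V p c ((p : ℤ) * k)) (h : OrdAt V p u β) (h' : OrdAt V p (c * K ^ p * u) β') :
    (p : ℤ) ∣ β' - β := by
  have h1 : OrdAt V p (K ^ p) (β' - ((p : ℤ) * k + β)) := by
    have e : K ^ p = c * K ^ p * u / (c * u) := by field_simp
    rw [e]
    exact h'.div hp0 (hc.mul hp0 h)
  obtain ⟨d, hd⟩ := dvd_of_ordAt_pow hp hpV hp0 hunif hK h1
  exact ⟨d + k, by rw [mul_add, ← hd]; ring⟩

/-- iterating `g U = η * H ^ p * U`, `g η = η`. -/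
theorem exists_iterate_deck (g : E ≃+* E) {U H η : E} (hη : g η = η)
    (hU : g U = η * H ^ p * U) (j : ℕ) : ∃ K : E, (g ^ j) U = η ^ j * K ^ p * U := by
  induction j with
  | zero => exact ⟨1, by rw [pow_zero, pow_zero, one_pow, one_mul, one_mul]; rfl⟩
  | succ j ih =>
    obtain ⟨K, hK⟩ := ih
    refine ⟨g K * H, ?_⟩
    rw [pow_succ', RingAut.mul_apply, hK, map_mul, map_mul, map_pow, map_pow, hη, hU, mul_pow,
      pow_succ]
    ring

end Fermat.Agent.LP.PL
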