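import Fermat.Agent.LP.PL.Abs.Main
import Fermat.Agent.LP.PL.Loc2.Ord

/-!
# LP-PL-LOC (S44), part (D), file `Const`: the exponent of the Picard-Lefschetz formula does not depend
on the node

Abstract setting of `PL/Abs/Main.lean`: `R` a DVR with uniformizer `ϖ = p`, `F` the function field over
`Frac R`, `𝒪₁ 𝒪₂` the two Gauss valuation subrings, `φ : F → E` the cyclic cover of degree `p` with deck
transformation `g`.  `U ∈ E` with `g U = η H ^ p U`, `η = ε p ^ (p k)`, `ε ∈ Rˣ`.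

`chart_formula` at a node gives `j, α, β` with `β = ord_{V₁} U`, `α = ord_{V₂} (g ^ j U)`.  All the valuation
subrings of `E` above `𝒪ᵢ` are conjugate under `g` (`chart_unif`), their maximal ideals are generated by
`p` (`chart_unif`), and `g ^ j U = η ^ j K ^ p U` (`exists_iterate_deck`), so `α`, `β` modulo `p` do not depend on
anything (`OrdAt.dvd_sub`).
-/

set_option autoImplicit false

namespace Fermat.Agent.LP.PL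

open Fermat.Agent.GR.E Fermat.Agent.GS

variable {R : Type*} [CommRing R] [IsDomain R] [IsDiscreteValuationRing R]
variable {F E : Type*} [Field F] [Field E] [Algebra R F] [Algebra R E]

/-- The data which do not depend on the node. -/
structure CoverBase (ϖ : R) (p : ℕ) (𝒪₁ 𝒪₂ : ValuationSubring F) (φ : F →ₐ[R] E) (g : E ≃+* E)
    (U H η : E) : Prop where
  irr : Irreducible ϖ
  prime : p.Prime
  hϖp : algebraMap R F ϖ = (p : F)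
  gauss₁ : GaussRing ϖ 𝒪₁
  gauss₂ : GaussRing ϖ 𝒪₂
  hgφ : ∀ f : F, g (φ f) = φ f
  hfix : ∀ e : E, g e = e → ∃ f : F, φ f = e
  hgp : ∀ e : E, (g ^ p) e = e
  U_ne : U ≠ 0
  div : DivisibleAtPlaces R p U
  deck : g U = η * H ^ p * U
  η_eq : ∃ (k : ℤ) (ε ε' : R), ε * ε' = 1 ∧ η = algebraMap R E ε * (p : E) ^ ((p : ℤ) * k)

/-- A regular node `X₁ X₂ = ϖ G` of a nodal chart with an Artin-Schreier generator. -/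
structure NodePack (ϖ : R) (p : ℕ) (𝒪₁ 𝒪₂ : ValuationSubring F) (φ : F →ₐ[R] E) (g : E ≃+* E)
    (C : Subalgebra R F) (𝔪 : Ideal C) [𝔪.IsPrime] (X₁ X₂ G : C) : Prop where
  chart : NodalChart ϖ 𝒪₁ 𝒪₂ C
  max : 𝔪.IsMaximal
  le₁ : vert ϖ 𝒪₁ C ≤ 𝔪
  le₂ : vert ϖ 𝒪₂ C ≤ 𝔪
  hX₁ : (X₁ : F) / algebraMap R F ϖ ∈ 𝒪₁
  hX₂ : (X₂ : F) / algebraMap R F ϖ ∈ 𝒪₂
  hG : G ∉ 𝔪
  hmul : X₁ * X₂ = algebraMap R C ϖ * G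
  gen : ∃ t : E, @ASGen (locAt C 𝔪) E _ _ (algBE φ (locAt C 𝔪)) p g t

variable {ϖ : R} {p : ℕ} {𝒪₁ 𝒪₂ : ValuationSubring F} {φ : F →ₐ[R] E} {g : E ≃+* E} {U H η : E}
  {C : Subalgebra R F} {𝔪 : Ideal C} [𝔪.IsPrime] {X₁ X₂ G : C}

theorem CoverBase.symm (B : CoverBase ϖ p 𝒪₁ 𝒪₂ φ g U H η) : CoverBase ϖ p 𝒪₂ 𝒪₁ φ g U H η :=
  { B with gauss₁ := B.gauss₂, gauss₂ := B.gauss₁ }

/-- (`NodalChart.symm`, `mul_comm`.) -/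
theorem NodePack.symm (P : NodePack ϖ p 𝒪₁ 𝒪₂ φ g C 𝔪 X₁ X₂ G) :
    NodePack ϖ p 𝒪₂ 𝒪₁ φ g C 𝔪 X₂ X₁ G := by
  exact
    { chart := P.chart.symm
      max := P.max
      le₁ := P.le₂
      le₂ := P.le₁
      hX₁ := P.hX₂
      hX₂ := P.hX₁
      hG := P.hG
      hmul := by rw [mul_comm]; exact P.hmul
      gen := P.gen }

theorem Const_natCast_eq (B : CoverBase ϖ p 𝒪₁ 𝒪₂ φ g U H η) :
    (p : E) = φ (algebraMap R F ϖ) := by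
  rw [B.hϖp, map_natCast]

theorem Const_pow_fix (B : CoverBase ϖ p 𝒪₁ 𝒪₂ φ g U H η) (j : ℕ) (f : F) :
    (g ^ j) (φ f) = φ f := by
  induction j with
  | zero => rfl
  | succ j ih =>
    rw [pow_succ, RingAut.mul_apply, B.hgφ, ih]

/-- `φ (algebraMap R F ϖ) = p`, which is a nonunit of `𝒪₁` (`GaussRing.mem`, `GaussRing.inv_not_mem`). -/
theorem CoverBase.natCast_mem_nonunits (B : CoverBase ϖ p 𝒪₁ 𝒪₂ φ g U H η)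
    {V : ValuationSubring E} (hV : ∀ f : F, φ f ∈ V ↔ f ∈ 𝒪₁) : (p : E) ∈ V.nonunits := by
  rw [Loc2_mem_nonunits_iff]
  right
  rw [Const_natCast_eq B, ← map_inv₀, hV]
  exact B.gauss₁.inv_not_mem

theorem CoverBase.natCast_ne_zero (B : CoverBase ϖ p 𝒪₁ 𝒪₂ φ g U H η) : (p : E) ≠ 0 := by
  rw [Const_natCast_eq B]
  exact (map_ne_zero _).2 B.gauss₁.ne_zero

/-- `algebraMap R E r = φ (algebraMap R F r)` (`φ.commutes`) is fixed by `g`. -/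
theorem CoverBase.map_eta (B : CoverBase ϖ p 𝒪₁ 𝒪₂ φ g U H η) : g η = η := by
  obtain ⟨k, ε, ε', -, hη⟩ := B.η_eq
  rw [hη, map_mul, map_zpow₀, map_natCast, ← φ.commutes ε, B.hgφ]

/-- the conjugates of a valuation subring above `𝒪₁` lie above `𝒪₁`. -/
theorem CoverBase.over_comap (B : CoverBase ϖ p 𝒪₁ 𝒪₂ φ g U H η) {V : ValuationSubring E}
    (hV : ∀ f : F, φ f ∈ V ↔ f ∈ 𝒪₁) (j : ℕ) :
    ∀ f : F, φ f ∈ V.comap ((g ^ j : E ≃+* E) : E →+* E) ↔ f ∈ 𝒪₁ := by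
  intro f
  rw [ValuationSubring.mem_comap, RingEquiv.coe_toRingHom, Const_pow_fix B, hV]

/-- `ε` is a unit of `R`, so its image is a unit of `V` (`algebraMap R E r = φ (algebraMap R F r) ∈ V` because
`algebraMap R F r ∈ 𝒪₁`: `P.chart.le₁ _ (C.algebraMap_mem r)`). -/
theorem NodePack.ordAt_eta (B : CoverBase ϖ p 𝒪₁ 𝒪₂ φ g U H η)
    (P : NodePack ϖ p 𝒪₁ 𝒪₂ φ g C 𝔪 X₁ X₂ G) {V : ValuationSubring E}
    (hV : ∀ f : F, φ f ∈ V ↔ f ∈ 𝒪₁) : ∃ k : ℤ, OrdAt V p η ((p : ℤ) * k) := by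
  obtain ⟨k, ε, ε', hεε', hη⟩ := B.η_eq
  have hmem : ∀ r : R, algebraMap R E r ∈ V := by
    intro r
    rw [← φ.commutes r, hV]
    exact P.chart.le₁ _ (C.algebraMap_mem r)
  have h0 : (p : E) ^ ((p : ℤ) * k) ≠ 0 := zpow_ne_zero _ B.natCast_ne_zero
  have e : η / (p : E) ^ ((p : ℤ) * k) = algebraMap R E ε := by
    rw [hη, mul_div_cancel_right₀ _ h0]
  have e' : (algebraMap R E ε)⁻¹ = algebraMap R E ε' := by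
    apply inv_eq_of_mul_eq_one_right
    rw [← map_mul, hεε', map_one]
  refine ⟨k, ?_, ?_⟩
  · rw [e]
    exact hmem ε
  · rw [e, e']
    exact hmem ε'

/-- (`chart_unif`, first part.) -/
theorem NodePack.unif (B : CoverBase ϖ p 𝒪₁ 𝒪₂ φ g U H η)
    (P : NodePack ϖ p 𝒪₁ 𝒪₂ φ g C 𝔪 X₁ X₂ G) {V : ValuationSubring E}
    (hV : ∀ f : F, φ f ∈ V ↔ f ∈ 𝒪₁) : ∀ e : E, e ∈ V.nonunits ↔ e / (p : E) ∈ V := by
  obtain ⟨t, T⟩ := P.gen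
  exact (chart_unif B.irr B.prime B.hϖp B.gauss₁ B.gauss₂ P.chart 𝔪 P.max P.le₁ P.le₂ P.hX₁ P.hX₂
    P.hG P.hmul φ g B.hgφ B.hfix B.hgp T hV).1

/-- (`chart_unif`, third part.) -/
theorem NodePack.exists_conj (B : CoverBase ϖ p 𝒪₁ 𝒪₂ φ g U H η)
    (P : NodePack ϖ p 𝒪₁ 𝒪₂ φ g C 𝔪 X₁ X₂ G) {V V' : ValuationSubring E}
    (hV : ∀ f : F, φ f ∈ V ↔ f ∈ 𝒪₁) (hV' : ∀ f : F, φ f ∈ V' ↔ f ∈ 𝒪₁) :
    ∃ j < p, V' = V.comap ((g ^ j : E ≃+* E) : E →+* E) := by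
  obtain ⟨t, T⟩ := P.gen
  exact (chart_unif B.irr B.prime B.hϖp B.gauss₁ B.gauss₂ P.chart 𝔪 P.max P.le₁ P.le₂ P.hX₁ P.hX₂
    P.hG P.hmul φ g B.hgφ B.hfix B.hgp T hV).2.2 V' hV'

/-- (`chart_formula` with `V₁ := V` and any `V₂` above `𝒪₂`, which exists by `Loc2_exists_ext`.) -/
theorem NodePack.exists_ordAt (B : CoverBase ϖ p 𝒪₁ 𝒪₂ φ g U H η)
    (P : NodePack ϖ p 𝒪₁ 𝒪₂ φ g C 𝔪 X₁ X₂ G) {V : ValuationSubring E}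
    (hV : ∀ f : F, φ f ∈ V ↔ f ∈ 𝒪₁) : ∃ β : ℤ, OrdAt V p U β := by
  obtain ⟨t, T⟩ := P.gen
  obtain ⟨V₂, hV₂⟩ := Loc2_exists_ext (φ : F →+* E) 𝒪₂
  obtain ⟨j, α, β, -, e1, e2, -⟩ := chart_formula B.irr B.prime B.hϖp B.gauss₁ B.gauss₂ P.chart 𝔪
    P.max P.le₁ P.le₂ P.hX₁ P.hX₂ P.hG P.hmul φ g B.hgφ B.hfix B.hgp T hV hV₂ B.U_ne B.div
  exact ⟨β, e1, e2⟩

/-- `g ^ j U = η ^ j K ^ p U` (`exists_iterate_deck`), `ord η ^ j = p (j k)` (`OrdAt.pow`), `OrdAt.dvd_sub`. -/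
theorem NodePack.dvd_sub (B : CoverBase ϖ p 𝒪₁ 𝒪₂ φ g U H η)
    (P : NodePack ϖ p 𝒪₁ 𝒪₂ φ g C 𝔪 X₁ X₂ G) {V : ValuationSubring E}
    (hV : ∀ f : F, φ f ∈ V ↔ f ∈ 𝒪₁) {j : ℕ} {β β' : ℤ} (h : OrdAt V p U β)
    (h' : OrdAt V p ((g ^ j) U) β') : (p : ℤ) ∣ β' - β := by
  obtain ⟨K, hK⟩ := exists_iterate_deck g B.map_eta B.deck j
  obtain ⟨k, hk⟩ := P.ordAt_eta B hV
  have hc : OrdAt V p (η ^ j) ((p : ℤ) * ((j : ℤ) * k)) := by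
    have h1 := hk.pow j
    have e : (j : ℤ) * ((p : ℤ) * k) = (p : ℤ) * ((j : ℤ) * k) := by ring
    rwa [e] at h1
  have hne : (g ^ j) U ≠ 0 := (map_ne_zero_iff _ (g ^ j).injective).2 B.U_ne
  rw [hK] at hne h'
  have hc0 : η ^ j ≠ 0 := left_ne_zero_of_mul (left_ne_zero_of_mul hne)
  have hK0 : K ≠ 0 := by
    rintro rfl
    rw [zero_pow B.prime.ne_zero, mul_zero, zero_mul] at hne
    exact hne rfl
  exact OrdAt.dvd_sub B.prime.pos (B.natCast_mem_nonunits hV) B.natCast_ne_zero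
    (fun e he => (P.unif B hV e).1 he) B.U_ne hc0 hK0 hc h h'

/-- two valuation subrings above `𝒪₁`: `V' = V.comap (g ^ j)`, `ordAt_comap`, `NodePack.dvd_sub`. -/
theorem NodePack.dvd_sub' (B : CoverBase ϖ p 𝒪₁ 𝒪₂ φ g U H η)
    (P : NodePack ϖ p 𝒪₁ 𝒪₂ φ g C 𝔪 X₁ X₂ G) {V V' : ValuationSubring E}
    (hV : ∀ f : F, φ f ∈ V ↔ f ∈ 𝒪₁) (hV' : ∀ f : F, φ f ∈ V' ↔ f ∈ 𝒪₁) {β β' : ℤ}
    (h : OrdAt V p U β) (h' : OrdAt V' p U β') : (p : ℤ) ∣ β' - β := by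
  obtain ⟨j, -, rfl⟩ := P.exists_conj B hV hV'
  exact P.dvd_sub B hV h ((ordAt_comap (g ^ j)).1 h')

/-- `φ X₂ ≠ 0`. -/
theorem NodePack.Const_map_ne_zero (B : CoverBase ϖ p 𝒪₁ 𝒪₂ φ g U H η)
    (P : NodePack ϖ p 𝒪₁ 𝒪₂ φ g C 𝔪 X₁ X₂ G) : φ (X₂ : F) ≠ 0 := by
  intro h0
  have h1 : (X₂ : F) = 0 := (map_eq_zero φ).1 h0
  have h2 := congrArg (Subtype.val : C → F) P.hmul
  have h3 : (X₁ : F) * (X₂ : F) = algebraMap R F ϖ * (G : F) := h2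
  rw [h1, mul_zero] at h3
  rcases mul_eq_zero.1 h3.symm with h4 | h4
  · exact B.gauss₁.ne_zero h4
  · apply P.hG
    have : G = 0 := Subtype.ext h4
    rw [this]
    exact 𝔪.zero_mem

/-- THE FORMULA WITH A FIXED EXPONENT.  `chart_formula` with `V₁`, `V₂ := V₂₀` gives `j, α, β, a`;
`p ∣ β - β₀` (`NodePack.dvd_sub'`), `p ∣ α - α₀` (`P.symm.dvd_sub B.symm`); write
`α - β = (α₀ - β₀) + p m`; then `φ X₂ ^ (α - β) = φ X₂ ^ (α₀ - β₀) * (φ X₂ ^ m) ^ p` (`zpow_add₀`, `zpow_mul`; `φ X₂ ≠ 0`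
because `X₁ X₂ = ϖ G ≠ 0`) and `a' := a / φ X₂ ^ m`. -/
theorem NodePack.formula_const (B : CoverBase ϖ p 𝒪₁ 𝒪₂ φ g U H η)
    (P : NodePack ϖ p 𝒪₁ 𝒪₂ φ g C 𝔪 X₁ X₂ G) {V₁₀ V₂₀ : ValuationSubring E}
    (h₁₀ : ∀ f : F, φ f ∈ V₁₀ ↔ f ∈ 𝒪₁) (h₂₀ : ∀ f : F, φ f ∈ V₂₀ ↔ f ∈ 𝒪₂) {α₀ β₀ : ℤ}
    (hβ₀ : OrdAt V₁₀ p U β₀) (hα₀ : OrdAt V₂₀ p U α₀) {V₁ W : ValuationSubring E}
    (hV₁ : ∀ f : F, φ f ∈ V₁ ↔ f ∈ 𝒪₁) (hW : W ≤ V₁) (hB : ∀ x ∈ locAt C 𝔪, φ x ∈ W) :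
    ∃ (a : E) (β : ℤ), a ≠ 0 ∧
      a ^ p * (U / ((p : E) ^ β * φ (X₂ : F) ^ (α₀ - β₀))) ∈ W ∧
      (a ^ p * (U / ((p : E) ^ β * φ (X₂ : F) ^ (α₀ - β₀))))⁻¹ ∈ W := by
  obtain ⟨t, T⟩ := P.gen
  obtain ⟨j, α, β, -, e1, e2, e3, e4, e5⟩ := chart_formula B.irr B.prime B.hϖp B.gauss₁ B.gauss₂
    P.chart 𝔪 P.max P.le₁ P.le₂ P.hX₁ P.hX₂ P.hG P.hmul φ g B.hgφ B.hfix B.hgp T hV₁ h₂₀ B.U_ne
    B.div
  have hβ : (p : ℤ) ∣ β - β₀ := P.dvd_sub' B h₁₀ hV₁ hβ₀ ⟨e1, e2⟩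
  have hα : (p : ℤ) ∣ α - α₀ := P.symm.dvd_sub B.symm h₂₀ hα₀ ⟨e3, e4⟩
  obtain ⟨m, hm⟩ : (p : ℤ) ∣ (α - β) - (α₀ - β₀) := by
    have := _root_.dvd_sub hα hβ
    have e : α - α₀ - (β - β₀) = (α - β) - (α₀ - β₀) := by ring
    rwa [e] at this
  obtain ⟨a, ha0, ha1, ha2⟩ := e5 W hW hB
  have hx0 := P.Const_map_ne_zero B
  have hxm : φ (X₂ : F) ^ m ≠ 0 := zpow_ne_zero _ hx0
  have hpow : φ (X₂ : F) ^ (α - β) = φ (X₂ : F) ^ (α₀ - β₀) * (φ (X₂ : F) ^ m) ^ p := by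
    have e : α - β = (α₀ - β₀) + m * (p : ℤ) := by linarith
    rw [e, zpow_add₀ hx0, zpow_mul, zpow_natCast]
  have key : a ^ p * (U / ((p : E) ^ β * φ (X₂ : F) ^ (α - β))) =
      (a / φ (X₂ : F) ^ m) ^ p * (U / ((p : E) ^ β * φ (X₂ : F) ^ (α₀ - β₀))) := by
    rw [hpow, div_pow]
    have h1 : (p : E) ^ β ≠ 0 := zpow_ne_zero _ B.natCast_ne_zero
    have h2 : φ (X₂ : F) ^ (α₀ - β₀) ≠ 0 := zpow_ne_zero _ hx0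
    generalize (p : E) ^ β = A at *
    generalize φ (X₂ : F) ^ (α₀ - β₀) = Y at *
    generalize φ (X₂ : F) ^ m = Z at *
    field_simp
  refine ⟨a / φ (X₂ : F) ^ m, β, div_ne_zero ha0 hxm, ?_, ?_⟩
  · rw [← key]; exact ha1
  · rw [← key]; exact ha2

/-- **EXPORT**: one exponent `r0` for all the nodes.  (Fix `V₁₀`, `V₂₀` (`Loc2_exists_ext`).  If `U` has orders
`β₀`, `α₀` at them put `r0 = α₀ - β₀` and use `NodePack.formula_const`; otherwise there is no node at all, by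
`NodePack.exists_ordAt` for `P` and `P.symm`.) -/
theorem exists_exponent (B : CoverBase ϖ p 𝒪₁ 𝒪₂ φ g U H η) :
    ∃ r0 : ℤ, ∀ (C : Subalgebra R F) (𝔪 : Ideal C) [𝔪.IsPrime] (X₁ X₂ G : C),
      NodePack ϖ p 𝒪₁ 𝒪₂ φ g C 𝔪 X₁ X₂ G →
      ∀ V₁ W : ValuationSubring E, (∀ f : F, φ f ∈ V₁ ↔ f ∈ 𝒪₁) → W ≤ V₁ →
        (∀ x ∈ locAt C 𝔪, φ x ∈ W) →
        ∃ (a : E) (β : ℤ), a ≠ 0 ∧
          a ^ p * (U / ((p : E) ^ β * φ (X₂ : F) ^ r0)) ∈ W ∧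
          (a ^ p * (U / ((p : E) ^ β * φ (X₂ : F) ^ r0)))⁻¹ ∈ W := by
  obtain ⟨V₁₀, h₁₀⟩ := Loc2_exists_ext (φ : F →+* E) 𝒪₁
  obtain ⟨V₂₀, h₂₀⟩ := Loc2_exists_ext (φ : F →+* E) 𝒪₂
  by_cases hex : ∃ α₀ β₀ : ℤ, OrdAt V₁₀ p U β₀ ∧ OrdAt V₂₀ p U α₀
  · obtain ⟨α₀, β₀, hβ₀, hα₀⟩ := hex
    refine ⟨α₀ - β₀, ?_⟩
    intro C 𝔪 _ X₁ X₂ G P V₁ W hV₁ hW hB
    exact P.formula_const B h₁₀ h₂₀ hβ₀ hα₀ hV₁ hW hB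
  · refine ⟨0, ?_⟩
    intro C 𝔪 _ X₁ X₂ G P V₁ W hV₁ hW hB
    exfalso
    obtain ⟨β₀, hβ₀⟩ := P.exists_ordAt B h₁₀
    obtain ⟨α₀, hα₀⟩ := P.symm.exists_ordAt B.symm h₂₀
    exact hex ⟨α₀, β₀, hβ₀, hα₀⟩

end Fermat.Agent.LP.PL
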