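import Fermat.Agent.LP.PL.Form.AS3
import Fermat.Agent.LP.PL.Form.ArchExt
import Fermat.Agent.LP.PL.Loc2.Const

/-!
# LP-PL-LOC (S44), part (D), file `Bridge`: from `ASGen` to `ASAt`; descent of `p`-divisibility from the
cover to the base

* `asAt_of_asGen` : an Artin-Schreier generator in the sense of PL-ABS (`ASGen`, integral closure of the local
  ring of a node) is one in the sense of PL-FORM (`ASAt`, valuation subring), at every valuation subring
  all of whose conjugates contain `B` and have maximal ideal generated by `p`.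
* `ASAt.map` : transport along a field homomorphism commuting with the deck transformations.
* `bridge_descend` : `ASAt` + cofinality of the powers of `p` on the base: `p`-divisibility at `W' ≤ 𝒪'` descends to
  the fixed field.
-/

set_option autoImplicit false

namespace Fermat.Agent.LP.PL

section A

variable {B E : Type*} [CommRing B] [Field E] [Algebra B E] {p : ℕ} {g : E ≃+* E} {t : E}

theorem Bridge_pow_apply (g : E ≃+* E) (k : ℕ) (x : E) :
    ((g : E →+* E) ^ k) x = (⇑g)^[k] x := by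
  rw [RingHom.coe_pow]
  rfl

theorem Bridge_mem_conjW {V : ValuationSubring E} {k : ℕ} {x : E} :
    x ∈ conjW g k V ↔ (⇑g)^[k] x ∈ V := by
  rw [conjW, ValuationSubring.mem_comap, Bridge_pow_apply]

theorem Bridge_mem_nonunits_conjW {V : ValuationSubring E} {k : ℕ} {x : E} :
    x ∈ (conjW g k V).nonunits ↔ (⇑g)^[k] x ∈ V.nonunits := by
  rw [conjW, Loc2_mem_nonunits_comap, Bridge_pow_apply]

/-- `V_k := conjW g k V` contains the image of `B` (`hgB`, `hBV`, `mem_conjW`; `(⇑g)^[k]` fixes the image of `B`: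
`Function.iterate_fixed`) and `p` is a nonunit of it (`mem_nonunits_conjW`, `AS3_iterate_natCast`).
`mem`: `Small_mem_of_isIntegral T.int`.  `as`: `T.as.mem_nonunits` then `hunif k`.  `shift`: `T.shift.mem_nonunits`.
(All three are statements about `V_k`, translated by `mem_conjW`, `mem_nonunits_conjW`.) -/
theorem asAt_of_asGen (T : ASGen B p g t) (hgB : ∀ b : B, g (algebraMap B E b) = algebraMap B E b)
    {V : ValuationSubring E} (hBV : ∀ b : B, algebraMap B E b ∈ V) (hpV : (p : E) ∈ V.nonunits)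
    (hunif : ∀ (k : ℕ) (e : E), e ∈ (conjW g k V).nonunits → e / (p : E) ∈ conjW g k V) :
    ASAt g p V t := by
  have hB : ∀ (k : ℕ) (b : B), algebraMap B E b ∈ conjW g k V := by
    intro k b
    rw [Bridge_mem_conjW, Function.iterate_fixed (hgB b)]
    exact hBV b
  have hP : ∀ k : ℕ, (p : E) ∈ (conjW g k V).nonunits := by
    intro k
    rw [Bridge_mem_nonunits_conjW, ← Bridge_pow_apply, map_natCast]
    exact hpV
  refine ⟨fun k => ?_, fun k => ?_, fun k => ?_⟩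
  · rw [← Bridge_mem_conjW]
    exact Small_mem_of_isIntegral T.int (hB k)
  · rw [← Bridge_mem_conjW]
    exact hunif k _ (T.as.mem_nonunits (hB k) (hP k))
  · rw [← Bridge_mem_nonunits_conjW]
    exact T.shift.mem_nonunits (hB k) (hP k)

end A

section M

variable {E EQ : Type*} [Field E] [Field EQ] {p : ℕ} {g : E ≃+* E} {gQ : EQ ≃+* EQ} {t : E}

/-- `(⇑gQ)^[k] (ι e) = ι ((⇑g)^[k] e)` (induction on `k`, `Function.iterate_succ_apply'`). -/
theorem Bridge_iterate (ι : E →+* EQ) (hι : ∀ e, gQ (ι e) = ι (g e)) (k : ℕ) (e : E) :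
    (⇑gQ)^[k] (ι e) = ι ((⇑g)^[k] e) := by
  induction k with
  | zero => rfl
  | succ k ih => rw [Function.iterate_succ_apply', ih, hι, Function.iterate_succ_apply']

/-- transport of `ASAt` (`Bridge_iterate`, `ValuationSubring.mem_comap`, `Loc2_mem_nonunits_comap`,
`map_div₀`, `map_sub`, `map_pow`, `map_natCast`, `map_one`). -/
theorem ASAt.map (ι : E →+* EQ) (hι : ∀ e, gQ (ι e) = ι (g e)) {𝒪' : ValuationSubring EQ}
    (h : ASAt g p (𝒪'.comap ι) t) : ASAt gQ p 𝒪' (ι t) := by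
  refine ⟨fun k => ?_, fun k => ?_, fun k => ?_⟩
  · rw [Bridge_iterate ι hι]
    exact ValuationSubring.mem_comap.1 (h.mem k)
  · have e : (ι t ^ p - ι t) / (p : EQ) = ι ((t ^ p - t) / (p : E)) := by
      rw [map_div₀, map_sub, map_pow, map_natCast]
    rw [e, Bridge_iterate ι hι]
    exact ValuationSubring.mem_comap.1 (h.as k)
  · have e : gQ (ι t) - ι t - 1 = ι (g t - t - 1) := by
      rw [map_sub, map_sub, map_one, hι]
    rw [e, Bridge_iterate ι hι]
    exact (Loc2_mem_nonunits_comap ι 𝒪' _).1 (h.shift k)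

end M

section D

variable {FQ EQ : Type*} [Field FQ] [Field EQ] [CharZero EQ] {p : ℕ} {gQ : EQ ≃+* EQ}

/-- THE DESCENT.  `ASAt.exists_residue` gives `i`, `ASAt.sepAt` gives `SepAt gQ p 𝒪' p e`; `arch_of_fixed` gives
`Arch 𝒪' p` (a fixed `y` is `φQ f`, `hArch f`); `pdiv_descend` (with `c := p`, `V := W'`, `n := p`) gives `b` fixed by
`gQ`, `b = φQ b₀`. -/
theorem bridge_descend (φQ : FQ →+* EQ) (hp : p.Prime) (hgQ : ∀ x, (⇑gQ)^[p] x = x)
    (hfixQ : ∀ x, gQ x = x → ∃ f, φQ f = x) {𝒪' W' : ValuationSubring EQ} (hW : W' ≤ 𝒪')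
    (hp𝒪 : (p : EQ) ∈ 𝒪'.nonunits) (hArch : ∀ f : FQ, ∃ n : ℕ, (p : EQ) ^ n * φQ f ∈ 𝒪') {t : EQ}
    (hT : ASAt gQ p 𝒪' t) {y : FQ} {a : EQ} (ha : a ≠ 0) (h1 : a ^ p * φQ y ∈ W')
    (h2 : (a ^ p * φQ y)⁻¹ ∈ W') :
    ∃ b : FQ, b ≠ 0 ∧ φQ (b ^ p * y) ∈ W' ∧ φQ (b ^ p * y)⁻¹ ∈ W' := by
  have hp0 : (p : EQ) ≠ 0 := Nat.cast_ne_zero.mpr hp.ne_zero
  obtain ⟨i, -, hi⟩ := hT.exists_residue hp hp𝒪
  have hsep := hT.sepAt hp hp𝒪 hi
  have hA : Arch 𝒪' (p : EQ) := by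
    refine arch_of_fixed hp.pos hgQ (natCast_mem 𝒪' p) ?_
    intro z hz
    obtain ⟨f, rfl⟩ := hfixQ z hz
    exact hArch f
  obtain ⟨b, hgb, hb0, hb1, hb2⟩ := pdiv_descend hp.pos hgQ hp0 hp𝒪 hA hsep hW ha h1 h2
  obtain ⟨b₀, rfl⟩ := hfixQ b hgb
  refine ⟨b₀, fun h => hb0 (by rw [h, map_zero]), ?_, ?_⟩
  · rw [map_mul, map_pow]
    exact hb1
  · rw [map_inv₀, map_mul, map_pow]
    exact hb2

end D

section N

open Fermat.Agent.GR.E Fermat.Agent.GS

variable {R : Type*} [CommRing R] [IsDomain R] [IsDiscreteValuationRing R]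
variable {F E : Type*} [Field F] [Field E] [Algebra R F] [Algebra R E]
variable {ϖ : R} {p : ℕ} {𝒪₁ 𝒪₂ : ValuationSubring F} {φ : F →ₐ[R] E} {g : E ≃+* E} {U H η : E}
  {C : Subalgebra R F} {𝔪 : Ideal C} [𝔪.IsPrime] {X₁ X₂ G : C}

/-- `conjW g k V = V.comap (g ^ k)` lies above `𝒪₁` (as `CoverBase.over_comap`; `mem_conjW`,
`Function.iterate_fixed (B.hgφ f)`). -/
theorem CoverBase.over_conjW (B : CoverBase ϖ p 𝒪₁ 𝒪₂ φ g U H η) {V : ValuationSubring E}
    (hV : ∀ f : F, φ f ∈ V ↔ f ∈ 𝒪₁) (k : ℕ) : ∀ f : F, φ f ∈ conjW g k V ↔ f ∈ 𝒪₁ := by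
  intro f
  rw [Bridge_mem_conjW, Function.iterate_fixed (B.hgφ f) k]
  exact hV f

/-- at a node, the Artin-Schreier generator is one at every valuation subring above `𝒪₁`
(`letI := algBE φ (locAt C 𝔪)`; `asAt_of_asGen`; the image of `x ∈ locAt C 𝔪` is `φ x`, and `x ∈ 𝒪₁`:
`(nodeLoc_locAt ..).le₁`-type statement or directly: `x * s ∈ C ⊆ 𝒪₁`, `s ∈ C ∖ 𝔪` is a unit of `𝒪₁` because
`vert ϖ 𝒪₁ C ≤ 𝔪` and `GaussRing.unif`; `hunif k` is `(P.unif B (B.over_conjW hV k) e).1`). -/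
theorem NodePack.exists_asAt (B : CoverBase ϖ p 𝒪₁ 𝒪₂ φ g U H η)
    (P : NodePack ϖ p 𝒪₁ 𝒪₂ φ g C 𝔪 X₁ X₂ G) :
    ∃ t : E, ∀ V : ValuationSubring E, (∀ f : F, φ f ∈ V ↔ f ∈ 𝒪₁) → ASAt g p V t := by
  obtain ⟨t, T⟩ := P.gen
  refine ⟨t, fun V hV => ?_⟩
  have hle := LocNode_le B.gauss₁ P.chart.le₁ 𝔪 P.le₁
  let _ := algBE φ (locAt C 𝔪)
  exact asAt_of_asGen T (fun b => B.hgφ _) (fun b => (hV _).2 (hle _ b.2))
    (B.natCast_mem_nonunits hV) (fun k e he => (P.unif B (B.over_conjW hV k) e).1 he)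

end N

end Fermat.Agent.LP.PL
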