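import Fermat.Agent.LP.PL.Loc2.Bridge

/-!
# LP-PL-LOC (S44), part (D), file `NodeAbs`: the node theorem, abstract form

Four fields: `F = FF L N → E = F1 L N z1` (over the unramified base `R = A ∩ L`) and
`FQ = FF Q̄ N → EQ = F1Q N z1`.
-/

set_option autoImplicit false

namespace Fermat.Agent.LP.PL

open Fermat.Agent.GR.E Fermat.Agent.GS

variable {R : Type*} [CommRing R] [IsDomain R] [IsDiscreteValuationRing R]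
variable {F E : Type*} [Field F] [Field E] [Algebra R F] [Algebra R E]
variable {ϖ : R} {p : ℕ} {𝒪₁ 𝒪₂ : ValuationSubring F} {φ : F →ₐ[R] E} {g : E ≃+* E} {U H η : E}

/-- the algebra: `ιE (a ^ p * (U / (p ^ β * φ X ^ r))) = (ιE a * Y / φQ (c₀ ^ β)) ^ p * φQ (u2 / ιF X ^ r)`. -/
theorem NodeAbs_alg {FQ EQ : Type*} [Field FQ] [Field EQ] (ιF : F →+* FQ) (ιE : E →+* EQ)
    (φQ : FQ →+* EQ) (hsq : ∀ f, φQ (ιF f) = ιE (φ f)) (hp0 : (p : FQ) ≠ 0) {c₀ : FQ}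
    (hc₀ : c₀ ^ p = (p : FQ)) {u2 : FQ} {Y : EQ} (hU : ιE U = φQ u2 * Y ^ p) (a : E) (β r : ℤ)
    (X : F) :
    ιE (a ^ p * (U / ((p : E) ^ β * φ X ^ r))) =
      (ιE a * Y / φQ (c₀ ^ β)) ^ p * φQ (u2 / ιF X ^ r) := by
  have hkey : (φQ (c₀ ^ β)) ^ p = (p : EQ) ^ β := by
    rw [← map_pow, ← zpow_natCast (c₀ ^ β) p, zpow_comm, zpow_natCast, hc₀, map_zpow₀,
      map_natCast]
  rw [div_pow, mul_pow, hkey, map_mul, map_pow, map_div₀, map_mul, map_zpow₀, map_zpow₀,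
    map_natCast, ← hsq, hU, map_div₀, map_zpow₀]
  simp only [div_eq_mul_inv, mul_inv]
  ring

/-- **THE NODE THEOREM, ABSTRACT FORM.** -/
theorem node_pdiv_abs (B : CoverBase ϖ p 𝒪₁ 𝒪₂ φ g U H η)
    {FQ EQ : Type*} [Field FQ] [Field EQ] [CharZero EQ]
    (ιF : F →+* FQ) (ιE : E →+* EQ) (φQ : FQ →+* EQ) (hsq : ∀ f, φQ (ιF f) = ιE (φ f))
    (gQ : EQ ≃+* EQ) (hgQ : ∀ e, gQ (ιE e) = ιE (g e)) (hgQp : ∀ x, (⇑gQ)^[p] x = x)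
    (hfixQ : ∀ x, gQ x = x → ∃ f, φQ f = x)
    {c₀ : FQ} (hc₀ : c₀ ^ p = (p : FQ)) {u2 : FQ} {Y : EQ} (hY : Y ≠ 0)
    (hU : ιE U = φQ u2 * Y ^ p) {𝒪 : ValuationSubring FQ} (h𝒪 : ∀ f, ιF f ∈ 𝒪 ↔ f ∈ 𝒪₁)
    (hArch : ∀ y : FQ, ∃ n : ℕ, (p : FQ) ^ n * y ∈ 𝒪) :
    ∃ r0 : ℤ, ∀ (C : Subalgebra R F) (𝔪 : Ideal C) [𝔪.IsPrime] (X₁ X₂ G : C),
      NodePack ϖ p 𝒪₁ 𝒪₂ φ g C 𝔪 X₁ X₂ G →
      ∀ V : ValuationSubring FQ, V ≤ 𝒪 → (∀ x ∈ locAt C 𝔪, ιF x ∈ V) →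
        ∃ a : FQ, a ≠ 0 ∧ a ^ p * (u2 / ιF (X₂ : F) ^ r0) ∈ V ∧
          (a ^ p * (u2 / ιF (X₂ : F) ^ r0))⁻¹ ∈ V := by
  obtain ⟨r0, hr0⟩ := exists_exponent B
  refine ⟨r0, fun C 𝔪 _ X₁ X₂ G P V hV hB => ?_⟩
  obtain ⟨W', 𝒪', hW𝒪, hW', h𝒪'⟩ := Loc2_exists_ext_pair φQ hV
  have hV₁ : ∀ f : F, φ f ∈ 𝒪'.comap ιE ↔ f ∈ 𝒪₁ := by
    intro f
    rw [ValuationSubring.mem_comap, ← hsq, h𝒪', h𝒪]
  have hWle : W'.comap ιE ≤ 𝒪'.comap ιE := fun x hx => hW𝒪 hx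
  have hBW : ∀ x ∈ locAt C 𝔪, φ x ∈ W'.comap ιE := by
    intro x hx
    rw [ValuationSubring.mem_comap, ← hsq, hW']
    exact hB x hx
  obtain ⟨a, β, ha, h1, h2⟩ := hr0 C 𝔪 X₁ X₂ G P _ _ hV₁ hWle hBW
  obtain ⟨t, ht⟩ := P.exists_asAt B
  have hT : ASAt gQ p 𝒪' (ιE t) := ASAt.map ιE hgQ (ht _ hV₁)
  have hp0Q : (p : FQ) ≠ 0 := by
    intro h0
    have : (p : EQ) = 0 := by rw [← map_natCast φQ, h0, map_zero]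
    exact B.prime.ne_zero (by exact_mod_cast this)
  have hp𝒪 : (p : EQ) ∈ 𝒪'.nonunits := by
    have := B.natCast_mem_nonunits hV₁
    rw [Loc2_mem_nonunits_comap, map_natCast] at this
    exact this
  have hArch' : ∀ f : FQ, ∃ n : ℕ, (p : EQ) ^ n * φQ f ∈ 𝒪' := by
    intro f
    obtain ⟨n, hn⟩ := hArch f
    refine ⟨n, ?_⟩
    rw [← map_natCast φQ, ← map_pow, ← map_mul, h𝒪']
    exact hn
  have hc0 : c₀ ≠ 0 := by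
    rintro rfl
    rw [zero_pow B.prime.ne_zero] at hc₀
    exact hp0Q hc₀.symm
  have key := NodeAbs_alg (φ := φ) ιF ιE φQ hsq hp0Q hc₀ hU a β r0 (X₂ : F)
  have h1' : (ιE a * Y / φQ (c₀ ^ β)) ^ p * φQ (u2 / ιF (X₂ : F) ^ r0) ∈ W' := by
    rw [← key]
    exact h1
  have h2' : ((ιE a * Y / φQ (c₀ ^ β)) ^ p * φQ (u2 / ιF (X₂ : F) ^ r0))⁻¹ ∈ W' := by
    rw [← key, ← map_inv₀]
    exact h2
  have ha' : ιE a * Y / φQ (c₀ ^ β) ≠ 0 :=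
    div_ne_zero (mul_ne_zero ((map_ne_zero ιE).2 ha) hY) ((map_ne_zero φQ).2 (zpow_ne_zero _ hc0))
  obtain ⟨b, hb, e1, e2⟩ := bridge_descend φQ B.prime hgQp hfixQ hW𝒪 hp𝒪 hArch' hT ha' h1' h2'
  refine ⟨b, hb, (hW' _).1 e1, ?_⟩
  rw [← hW']
  exact e2

end Fermat.Agent.LP.PL
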