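import Fermat.Agent.LP.PL.Loc2.Val

/-!
# LP-PL-LOC (S44), part (C), file `Trace` (Mathlib only): the trace trick

`E₂ / E` is an extension of constants: a finite family `δ i` of automorphisms of `E₂` (a group: `hperm`, `hi₀`) with
fixed field `ψ E`, acting on the constants `κ : K₂ → E₂` through pairwise distinct automorphisms `τ i` of `K₂`.

* `Trace_exists_dual` (Dedekind): there are `ω y ∈ K₂` with `∑_y ω y * τ i y = δ_{i, i₀}`.
* `Trace_expand` : `x = ∑_y κ (ω y) * tr (κ y * x)`, `tr = ∑_i δ i`.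
* `trace_closure` : if `M`, `M'` are additive subgroups of `E₂` stable under the `δ i` and under multiplication by
  constants and `1 ∈ M M'`, then `1 ∈ (M ∩ E) (M' ∩ E)`.
* `divHor_of_cert` : a certificate `∑ a_i b_i = 1`, `a_i ^ p U`, `b_i ^ p U⁻¹` integral, over `E₂` gives `p ∣ ord_V U` for the
  valuation subrings `V` of `E`.
-/

set_option autoImplicit false

namespace Fermat.Agent.LP.PL

section Dual

variable {K₂ : Type*} [Field K₂] {ι : Type*} [Fintype ι] [DecidableEq ι]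

/-- DEDEKIND.  The vectors `v y = (τ i y)_i ∈ ι → K₂`, `y ∈ K₂`, span `ι → K₂`: otherwise there is a nonzero
linear form `∑ c_i x_i` vanishing on all of them (`Submodule.exists_le_ker_of_lt_top`,
`LinearMap.pi_apply_eq_sum_univ`), which contradicts `linearIndependent_monoidHom K₂ K₂` applied to the
pairwise distinct monoid homomorphisms `(τ i : K₂ →* K₂)` (`Fintype.linearIndependent_iff` after
`LinearIndependent.comp` with the injective map `i ↦ (τ i : K₂ →* K₂)`).  Then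
`Pi.single i₀ 1 ∈ span (range v)` and `Finsupp.mem_span_range_iff_exists_finsupp` gives `c : K₂ →₀ K₂`;
`s := c.support`, `ω := c`. -/
theorem Trace_exists_dual (τ : ι → K₂ ≃+* K₂)
    (hτ : Function.Injective (fun i => (τ i : K₂ → K₂))) (i₀ : ι) :
    ∃ (s : Finset K₂) (ω : K₂ → K₂), ∀ i, ∑ y ∈ s, ω y * τ i y = if i = i₀ then 1 else 0 := by
  have hli : LinearIndependent K₂ (fun i => ((τ i : K₂ → K₂))) := by
    have h1 := (linearIndependent_monoidHom K₂ K₂).comp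
      (fun i => ((τ i : K₂ ≃+* K₂) : K₂ →* K₂)) (by
        intro i j hij
        apply hτ
        funext y
        exact DFunLike.congr_fun hij y)
    exact h1
  have htop : Submodule.span K₂ (Set.range (fun y : K₂ => (fun i => τ i y : ι → K₂))) = ⊤ := by
    by_contra hne
    obtain ⟨f, hf0, hf⟩ := Submodule.exists_le_ker_of_lt_top _ (lt_top_iff_ne_top.2 hne)
    apply hf0
    have hc : ∀ i, f (fun j => if i = j then 1 else 0) = 0 := by
      rw [Fintype.linearIndependent_iff] at hli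
      apply hli
      funext y
      have h2 : f (fun i => τ i y) = 0 := hf (Submodule.subset_span ⟨y, rfl⟩)
      rw [LinearMap.pi_apply_eq_sum_univ] at h2
      have h4 : (∑ i, f (fun j => if i = j then 1 else 0) • (τ i : K₂ → K₂)) y
          = ∑ i, τ i y • f (fun j => if i = j then 1 else 0) := by
        rw [Finset.sum_apply]
        refine Finset.sum_congr rfl fun i _ => ?_
        simp [mul_comm]
      rw [h4, h2]
      rfl
    ext i
    simp only [LinearMap.coe_comp, LinearMap.coe_single, Function.comp_apply, LinearMap.zero_apply]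
    have : (Pi.single i (1 : K₂) : ι → K₂) = fun j => if i = j then 1 else 0 := by
      funext j
      rw [Pi.single_apply]
      simp [eq_comm]
    rw [this]
    exact hc i
  have hmem : (Pi.single i₀ (1 : K₂) : ι → K₂) ∈
      Submodule.span K₂ (Set.range (fun y : K₂ => (fun i => τ i y : ι → K₂))) := by
    rw [htop]
    exact Submodule.mem_top
  obtain ⟨c, hc⟩ := Finsupp.mem_span_range_iff_exists_finsupp.1 hmem
  refine ⟨c.support, c, fun i => ?_⟩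
  have h3 := congrFun hc i
  rw [Finsupp.sum, Finset.sum_apply, Pi.single_apply] at h3
  rw [← h3]
  rfl

end Dual

section Tr

variable {E₂ : Type*} [Field E₂] {ι : Type*} [Fintype ι]

/-- the trace. -/
def trD (δ : ι → E₂ ≃+* E₂) (x : E₂) : E₂ := ∑ i, δ i x

theorem trD_add (δ : ι → E₂ ≃+* E₂) (x y : E₂) : trD δ (x + y) = trD δ x + trD δ y := by
  simp only [trD, map_add, Finset.sum_add_distrib]

theorem trD_neg (δ : ι → E₂ ≃+* E₂) (x : E₂) : trD δ (-x) = -trD δ x := by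
  simp only [trD, map_neg, Finset.sum_neg_distrib]

theorem trD_sum (δ : ι → E₂ ≃+* E₂) {J : Type*} (s : Finset J) (f : J → E₂) :
    trD δ (∑ j ∈ s, f j) = ∑ j ∈ s, trD δ (f j) := by
  simp only [trD, map_sum]
  exact Finset.sum_comm

/-- (`map_sum`, `hperm i`, `Equiv.sum_comp`.) -/
theorem trD_fixed (δ : ι → E₂ ≃+* E₂)
    (hperm : ∀ i, ∃ π : Equiv.Perm ι, ∀ k e, δ i (δ k e) = δ (π k) e) (i : ι) (x : E₂) :
    δ i (trD δ x) = trD δ x := by
  obtain ⟨π, hπ⟩ := hperm i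
  simp only [trD, map_sum, hπ]
  exact Equiv.sum_comp π (fun k => δ k x)

/-- `tr (x * y) = tr x * y` if `y` is fixed. -/
theorem trD_mul_fixed (δ : ι → E₂ ≃+* E₂) (x : E₂) {y : E₂} (hy : ∀ i, δ i y = y) :
    trD δ (x * y) = trD δ x * y := by
  simp only [trD, map_mul, hy, Finset.sum_mul]

theorem trD_mem (δ : ι → E₂ ≃+* E₂) (M : AddSubgroup E₂) (hMδ : ∀ i, ∀ x ∈ M, δ i x ∈ M) {x : E₂}
    (hx : x ∈ M) : trD δ x ∈ M :=
  M.sum_mem (fun i _ => hMδ i x hx)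

variable {K₂ : Type*} [Field K₂] [DecidableEq ι]

/-- `∑_y κ (ω y) * ∑_i δ i (κ y) * δ i x = ∑_i κ (∑_y ω y * τ i y) * δ i x = δ i₀ x = x`
(`Finset.sum_comm`, `Finset.mul_sum`, `map_sum`, `map_mul`, `Finset.sum_ite_eq`). -/
theorem Trace_expand (κ : K₂ →+* E₂) (δ : ι → E₂ ≃+* E₂) (τ : ι → K₂ ≃+* K₂) (i₀ : ι)
    (hi₀ : ∀ e, δ i₀ e = e) (hδκ : ∀ i c, δ i (κ c) = κ (τ i c)) {s : Finset K₂} {ω : K₂ → K₂}
    (hω : ∀ i, ∑ y ∈ s, ω y * τ i y = if i = i₀ then 1 else 0) (x : E₂) :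
    x = ∑ y ∈ s, κ (ω y) * trD δ (κ y * x) := by
  symm
  calc ∑ y ∈ s, κ (ω y) * trD δ (κ y * x) = ∑ y ∈ s, ∑ i, κ (ω y * τ i y) * δ i x := by
        refine Finset.sum_congr rfl (fun y _ => ?_)
        rw [trD, Finset.mul_sum]
        refine Finset.sum_congr rfl (fun i _ => ?_)
        rw [map_mul, hδκ, map_mul, mul_assoc]
    _ = ∑ i, ∑ y ∈ s, κ (ω y * τ i y) * δ i x := Finset.sum_comm
    _ = ∑ i, κ (∑ y ∈ s, ω y * τ i y) * δ i x := by
        refine Finset.sum_congr rfl (fun i _ => ?_)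
        rw [map_sum, Finset.sum_mul]
    _ = ∑ i, (if i = i₀ then δ i x else 0) := by
        refine Finset.sum_congr rfl (fun i _ => ?_)
        rw [hω]
        split_ifs <;> simp
    _ = x := by
        rw [Finset.sum_ite_eq' Finset.univ i₀ (fun i => δ i x), if_pos (Finset.mem_univ _), hi₀]

end Tr

section Main

variable {E E₂ K₂ : Type*} [Field E] [Field E₂] [Field K₂] [CharZero E₂]
  {ι : Type*} [Fintype ι]

/-- the averaged trace of a product `a b`, `a ∈ M`, `b ∈ M'`.  With `A y = tr (κ y * a)`, `B y = tr (κ y * b)` (fixed by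
`trD_fixed`, in `M`, `M'` by `trD_mem`), `a * b = ∑_{y, y'} κ (ω y * ω y') * (A y * B y')` (`Trace_expand` twice), so
`n⁻¹ * tr (a * b) = ∑_{y, y'} (n⁻¹ * tr (κ (ω y * ω y')) * A y) * B y'` (`trD_sum`, `trD_mul_fixed`);
`tr (κ c) = κ (∑_i τ i c)` and `n⁻¹ = κ n⁻¹`, so the first factor lies in `M`; it is fixed; `hδfix`. -/
theorem Trace_avg_mem (ψ : E →+* E₂) (κ : K₂ →+* E₂) (δ : ι → E₂ ≃+* E₂) (τ : ι → K₂ ≃+* K₂)
    (hτ : Function.Injective (fun i => (τ i : K₂ → K₂))) (i₀ : ι) (hi₀ : ∀ e, δ i₀ e = e)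
    (hδκ : ∀ i c, δ i (κ c) = κ (τ i c))
    (hδfix : ∀ x : E₂, (∀ i, δ i x = x) → ∃ e : E, ψ e = x)
    (hperm : ∀ i, ∃ π : Equiv.Perm ι, ∀ k e, δ i (δ k e) = δ (π k) e)
    (M M' : AddSubgroup E₂) (hMδ : ∀ i, ∀ x ∈ M, δ i x ∈ M) (hMκ : ∀ c, ∀ x ∈ M, κ c * x ∈ M)
    (hM'δ : ∀ i, ∀ x ∈ M', δ i x ∈ M') (hM'κ : ∀ c, ∀ x ∈ M', κ c * x ∈ M') {a b : E₂}
    (ha : a ∈ M) (hb : b ∈ M') :
    ((Fintype.card ι : E₂))⁻¹ * trD δ (a * b) ∈
      (AddSubgroup.closure {z : E | ∃ a b : E, ψ a ∈ M ∧ ψ b ∈ M' ∧ z = a * b}).map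
        (ψ : E →+ E₂) := by
  classical
  obtain ⟨s, ω, hω⟩ := Trace_exists_dual τ hτ i₀
  set Q : AddSubgroup E₂ :=
    (AddSubgroup.closure {z : E | ∃ a b : E, ψ a ∈ M ∧ ψ b ∈ M' ∧ z = a * b}).map
      (ψ : E →+ E₂) with hQ
  set A : K₂ → E₂ := fun y => trD δ (κ y * a) with hA
  set B : K₂ → E₂ := fun y => trD δ (κ y * b) with hB
  have hAfix : ∀ y i, δ i (A y) = A y := fun y i => trD_fixed δ hperm i _
  have hBfix : ∀ y i, δ i (B y) = B y := fun y i => trD_fixed δ hperm i _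
  have hAM : ∀ y, A y ∈ M := fun y => trD_mem δ M hMδ (hMκ y a ha)
  have hBM : ∀ y, B y ∈ M' := fun y => trD_mem δ M' hM'δ (hM'κ y b hb)
  have ha' : a = ∑ y ∈ s, κ (ω y) * A y := Trace_expand κ δ τ i₀ hi₀ hδκ hω a
  have hb' : b = ∑ y ∈ s, κ (ω y) * B y := Trace_expand κ δ τ i₀ hi₀ hδκ hω b
  have hab : a * b = ∑ y ∈ s, ∑ y' ∈ s, κ (ω y * ω y') * (A y * B y') := by
    conv_lhs => rw [ha', hb']
    rw [Finset.sum_mul_sum]
    refine Finset.sum_congr rfl (fun y _ => Finset.sum_congr rfl (fun y' _ => ?_))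
    rw [map_mul]
    ring
  have htr : ((Fintype.card ι : E₂))⁻¹ * trD δ (a * b) =
      ∑ y ∈ s, ∑ y' ∈ s,
        (((Fintype.card ι : E₂))⁻¹ * trD δ (κ (ω y * ω y')) * A y) * B y' := by
    rw [hab, trD_sum, Finset.mul_sum]
    refine Finset.sum_congr rfl (fun y _ => ?_)
    rw [trD_sum, Finset.mul_sum]
    refine Finset.sum_congr rfl (fun y' _ => ?_)
    rw [trD_mul_fixed δ _ (fun i => by rw [map_mul, hAfix, hBfix])]
    ring
  rw [htr]
  refine Q.sum_mem (fun y _ => Q.sum_mem (fun y' _ => ?_))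
  have hF1 : ((Fintype.card ι : E₂))⁻¹ * trD δ (κ (ω y * ω y')) * A y ∈ M := by
    have h1 : ((Fintype.card ι : E₂))⁻¹ * trD δ (κ (ω y * ω y')) =
        κ (((Fintype.card ι : K₂))⁻¹ * ∑ i, τ i (ω y * ω y')) := by
      generalize ω y * ω y' = c
      rw [map_mul, map_inv₀, map_natCast, map_sum, trD]
      simp only [hδκ]
    rw [h1]
    exact hMκ _ _ (hAM y)
  have hF2 : ∀ i, δ i (((Fintype.card ι : E₂))⁻¹ * trD δ (κ (ω y * ω y')) * A y) =
      ((Fintype.card ι : E₂))⁻¹ * trD δ (κ (ω y * ω y')) * A y := by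
    intro i
    rw [map_mul, map_mul, map_inv₀, map_natCast, hAfix, trD_fixed δ hperm]
  obtain ⟨e, he⟩ := hδfix _ hF2
  obtain ⟨e', he'⟩ := hδfix _ (hBfix y')
  refine ⟨e * e', AddSubgroup.subset_closure ⟨e, e', ?_, ?_, rfl⟩, ?_⟩
  · rw [he]; exact hF1
  · rw [he']; exact hBM y'
  · show ψ (e * e') = _
    rw [map_mul, he, he']

/-- THE TRACE TRICK.  `Φ z = n⁻¹ * tr z` is additive, maps the generators `a * b` into the subgroup
`Q = ψ (closure ..)` (`Trace_avg_mem`), so it maps `1` into `Q` (`AddSubgroup.closure_induction`); `Φ 1 = 1`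
(`map_one`, `Finset.sum_const`, `Finset.card_univ`, `n ≠ 0` because `ι` is nonempty and `CharZero`); `ψ` is injective. -/
theorem trace_closure (ψ : E →+* E₂) (κ : K₂ →+* E₂) (δ : ι → E₂ ≃+* E₂) (τ : ι → K₂ ≃+* K₂)
    (hτ : Function.Injective (fun i => (τ i : K₂ → K₂))) (i₀ : ι) (hi₀ : ∀ e, δ i₀ e = e)
    (hδκ : ∀ i c, δ i (κ c) = κ (τ i c))
    (hδfix : ∀ x : E₂, (∀ i, δ i x = x) → ∃ e : E, ψ e = x)
    (hperm : ∀ i, ∃ π : Equiv.Perm ι, ∀ k e, δ i (δ k e) = δ (π k) e)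
    (M M' : AddSubgroup E₂) (hMδ : ∀ i, ∀ x ∈ M, δ i x ∈ M) (hMκ : ∀ c, ∀ x ∈ M, κ c * x ∈ M)
    (hM'δ : ∀ i, ∀ x ∈ M', δ i x ∈ M') (hM'κ : ∀ c, ∀ x ∈ M', κ c * x ∈ M')
    (h1 : (1 : E₂) ∈ AddSubgroup.closure {z : E₂ | ∃ a ∈ M, ∃ b ∈ M', z = a * b}) :
    (1 : E) ∈ AddSubgroup.closure {z : E | ∃ a b : E, ψ a ∈ M ∧ ψ b ∈ M' ∧ z = a * b} := by
  set Q : AddSubgroup E₂ :=
    (AddSubgroup.closure {z : E | ∃ a b : E, ψ a ∈ M ∧ ψ b ∈ M' ∧ z = a * b}).map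
      (ψ : E →+ E₂) with hQ
  have key : ∀ z ∈ AddSubgroup.closure {z : E₂ | ∃ a ∈ M, ∃ b ∈ M', z = a * b},
      ((Fintype.card ι : E₂))⁻¹ * trD δ z ∈ Q := by
    intro z hz
    induction hz using AddSubgroup.closure_induction with
    | mem x hx =>
      obtain ⟨a, ha, b, hb, rfl⟩ := hx
      exact Trace_avg_mem ψ κ δ τ hτ i₀ hi₀ hδκ hδfix hperm M M' hMδ hMκ hM'δ hM'κ ha hb
    | zero =>
      have : trD δ (0 : E₂) = 0 := by simp [trD]
      rw [this, mul_zero]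
      exact Q.zero_mem
    | add x y _ _ hx hy =>
      rw [trD_add, mul_add]
      exact Q.add_mem hx hy
    | neg x _ hx =>
      rw [trD_neg, mul_neg]
      exact Q.neg_mem hx
  have h2 := key 1 h1
  have hn : (Fintype.card ι : E₂) ≠ 0 := by
    have : Nonempty ι := ⟨i₀⟩
    exact Nat.cast_ne_zero.2 Fintype.card_ne_zero
  have h3 : ((Fintype.card ι : E₂))⁻¹ * trD δ (1 : E₂) = 1 := by
    have : trD δ (1 : E₂) = (Fintype.card ι : E₂) := by
      simp [trD]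
    rw [this, inv_mul_cancel₀ hn]
  rw [h3] at h2
  obtain ⟨e, he, he1⟩ := h2
  have he1' : ψ e = ψ 1 := by rw [map_one]; exact he1
  rwa [ψ.injective he1'] at he

end Main

section Pow

variable {K : Type*} [Field K]

/-- `a ^ n w, b ^ n w ∈ V → (a + b) ^ n w ∈ V`  (if `b = 0` clear; if `a / b ∈ V`:
`(a + b) ^ n * w = (a / b + 1) ^ n * (b ^ n * w)`; otherwise `b / a ∈ V`, symmetric). -/
theorem Trace_add_pow_mem (V : ValuationSubring K) (n : ℕ) {w a b : K} (ha : a ^ n * w ∈ V)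
    (hb : b ^ n * w ∈ V) : (a + b) ^ n * w ∈ V := by
  rw [← ValuationSubring.valuation_le_one_iff, map_mul, map_pow] at ha hb ⊢
  have h := V.valuation.map_add a b
  rcases le_total (V.valuation a) (V.valuation b) with h1 | h1
  · rw [max_eq_right h1] at h
    exact (mul_le_mul_left (pow_le_pow_left' h n) _).trans hb
  · rw [max_eq_left h1] at h
    exact (mul_le_mul_left (pow_le_pow_left' h n) _).trans ha

/-- `(-a) ^ n * w = ± a ^ n * w` (`neg_pow`, `Even.neg_pow`/`Odd.neg_pow` or `neg_one_pow_eq_or`). -/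
theorem Trace_neg_pow_mem (V : ValuationSubring K) (n : ℕ) {w a : K} (ha : a ^ n * w ∈ V) :
    (-a) ^ n * w ∈ V := by
  rw [← ValuationSubring.valuation_le_one_iff, map_mul, map_pow] at ha ⊢
  rw [Valuation.map_neg]
  exact ha

/-- the additive group `{a | ∀ V ∈ 𝒱, a ^ n * w ∈ V}`. -/
def powGrp (𝒱 : Set (ValuationSubring K)) (n : ℕ) (hn : 0 < n) (w : K) : AddSubgroup K where
  carrier := {a | ∀ V ∈ 𝒱, a ^ n * w ∈ V}
  add_mem' := fun ha hb V hV => Trace_add_pow_mem V n (ha V hV) (hb V hV)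
  zero_mem' := fun V _ => by
    rw [zero_pow hn.ne', zero_mul]
    exact V.zero_mem
  neg_mem' := fun ha V hV => Trace_neg_pow_mem V n (ha V hV)

theorem mem_powGrp {𝒱 : Set (ValuationSubring K)} {n : ℕ} {hn : 0 < n} {w a : K} :
    a ∈ powGrp 𝒱 n hn w ↔ ∀ V ∈ 𝒱, a ^ n * w ∈ V := Iff.rfl

end Pow

section Cert

variable {E E₂ K₂ : Type*} [Field E] [Field E₂] [Field K₂] [CharZero E₂]
  {ι : Type*} [Fintype ι]

/-- **EXPORT (abstract form of (C))**.  `M := powGrp 𝒱 p hp (ψ U)`, `M' := powGrp 𝒱 p hp (ψ U)⁻¹`.  They are stable under `δ i`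
(`δ i a ^ p * ψ U = δ i (a ^ p * ψ U)` by `hδψ`, and `W.comap (δ i) ∈ 𝒱`) and under the constants
(`(κ c * a) ^ p * w = κ c ^ p * (a ^ p * w)`).  `1 = ∑ a_i b_i` lies in the closure (`AddSubgroup.sum_mem`,
`AddSubgroup.subset_closure`).  By `trace_closure`, `1 ∈ closure P`, `P = {a' b' | ψ a' ∈ M, ψ b' ∈ M'}`.
For `a' b' ∈ P`: `a' ^ p U ∈ V`, `b' ^ p U⁻¹ ∈ V` (`hVW`, `hW₀`), so `(a' b') ^ p ∈ V`, so `a' b' ∈ V` (`Loc2_mem_of_pow_mem`).  If all
these products were nonunits of `V`, then `1` would be one (the nonunits of `V` together with ... form an additive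
subgroup: use `AddSubgroup.closure_le` with the subgroup `{x | V.valuation x < 1}`,
`ValuationSubring.mem_nonunits_iff`, `Valuation.map_add_lt`).  So some `a' b'` is a unit of `V`; then
`(a' ^ p U)⁻¹ = (b' ^ p U⁻¹) * ((a' b') ^ p)⁻¹ ∈ V`; `c := a'`. -/
theorem divHor_of_cert (ψ : E →+* E₂) (κ : K₂ →+* E₂) (δ : ι → E₂ ≃+* E₂) (τ : ι → K₂ ≃+* K₂)
    (hτ : Function.Injective (fun i => (τ i : K₂ → K₂))) (i₀ : ι) (hi₀ : ∀ e, δ i₀ e = e)
    (hδκ : ∀ i c, δ i (κ c) = κ (τ i c)) (hδψ : ∀ i (e : E), δ i (ψ e) = ψ e)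
    (hδfix : ∀ x : E₂, (∀ i, δ i x = x) → ∃ e : E, ψ e = x)
    (hperm : ∀ i, ∃ π : Equiv.Perm ι, ∀ k e, δ i (δ k e) = δ (π k) e)
    (𝒱 : Set (ValuationSubring E₂))
    (h𝒱δ : ∀ i, ∀ W ∈ 𝒱, W.comap ((δ i : E₂ ≃+* E₂) : E₂ →+* E₂) ∈ 𝒱)
    (h𝒱κ : ∀ W ∈ 𝒱, ∀ c, κ c ∈ W) {p : ℕ} (hp : 0 < p) {U : E} (hU : U ≠ 0) {m : ℕ}
    (a b : Fin m → E₂) (ha : ∀ i, ∀ W ∈ 𝒱, a i ^ p * ψ U ∈ W)
    (hb : ∀ i, ∀ W ∈ 𝒱, b i ^ p * (ψ U)⁻¹ ∈ W) (hsum : ∑ i, a i * b i = 1)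
    {V : ValuationSubring E} {W₀ : ValuationSubring E₂} (hW₀ : W₀ ∈ 𝒱)
    (hVW : ∀ e, ψ e ∈ W₀ ↔ e ∈ V) :
    ∃ c : E, c ≠ 0 ∧ c ^ p * U ∈ V ∧ (c ^ p * U)⁻¹ ∈ V := by
  have hMδ : ∀ i, ∀ x ∈ powGrp 𝒱 p hp (ψ U), δ i x ∈ powGrp 𝒱 p hp (ψ U) := by
    intro i x hx W hW
    have h1 : x ^ p * ψ U ∈ W.comap ((δ i : E₂ ≃+* E₂) : E₂ →+* E₂) := hx _ (h𝒱δ i W hW)
    have h2 : δ i (x ^ p * ψ U) ∈ W := h1
    rwa [map_mul, map_pow, hδψ] at h2
  have hM'δ : ∀ i, ∀ x ∈ powGrp 𝒱 p hp (ψ U)⁻¹, δ i x ∈ powGrp 𝒱 p hp (ψ U)⁻¹ := by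
    intro i x hx W hW
    have h1 : x ^ p * (ψ U)⁻¹ ∈ W.comap ((δ i : E₂ ≃+* E₂) : E₂ →+* E₂) := hx _ (h𝒱δ i W hW)
    have h2 : δ i (x ^ p * (ψ U)⁻¹) ∈ W := h1
    rwa [map_mul, map_pow, map_inv₀, hδψ] at h2
  have hκ : ∀ (w : E₂) (c : K₂), ∀ x ∈ powGrp 𝒱 p hp w, κ c * x ∈ powGrp 𝒱 p hp w := by
    intro w c x hx W hW
    rw [mul_pow, mul_assoc]
    exact W.mul_mem _ _ (pow_mem (h𝒱κ W hW c) p) (hx W hW)
  have h1 : (1 : E₂) ∈ AddSubgroup.closure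
      {z : E₂ | ∃ a ∈ powGrp 𝒱 p hp (ψ U), ∃ b ∈ powGrp 𝒱 p hp (ψ U)⁻¹, z = a * b} := by
    rw [← hsum]
    exact AddSubgroup.sum_mem _ fun i _ =>
      AddSubgroup.subset_closure ⟨a i, ha i, b i, hb i, rfl⟩
  have h2 := trace_closure ψ κ δ τ hτ i₀ hi₀ hδκ hδfix hperm (powGrp 𝒱 p hp (ψ U))
    (powGrp 𝒱 p hp (ψ U)⁻¹) hMδ (hκ _) hM'δ (hκ _) h1
  -- some product is not in the maximal ideal
  have h3 : ∃ a' b' : E, ψ a' ∈ powGrp 𝒱 p hp (ψ U) ∧ ψ b' ∈ powGrp 𝒱 p hp (ψ U)⁻¹ ∧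
      ¬ V.valuation (a' * b') < 1 := by
    by_contra hcon
    push Not at hcon
    let Q : AddSubgroup E :=
      { carrier := {x | V.valuation x < 1}
        add_mem' := fun {x y} hx hy => by
          show V.valuation (x + y) < 1
          exact Valuation.map_add_lt _ hx hy
        zero_mem' := by simp
        neg_mem' := fun {x} hx => by
          show V.valuation (-x) < 1
          rw [Valuation.map_neg]
          exact hx }
    have hle : AddSubgroup.closure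
        {z : E | ∃ a b : E, ψ a ∈ powGrp 𝒱 p hp (ψ U) ∧ ψ b ∈ powGrp 𝒱 p hp (ψ U)⁻¹ ∧ z = a * b}
        ≤ Q := by
      rw [AddSubgroup.closure_le]
      rintro z ⟨a', b', ha', hb', rfl⟩
      exact hcon a' b' ha' hb'
    have h4 : V.valuation (1 : E) < 1 := hle h2
    rw [map_one] at h4
    exact lt_irrefl _ h4
  obtain ⟨a', b', ha', hb', hab⟩ := h3
  have hA : a' ^ p * U ∈ V := by
    rw [← hVW, map_mul, map_pow]
    exact ha' W₀ hW₀
  have hB : b' ^ p * U⁻¹ ∈ V := by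
    rw [← hVW, map_mul, map_pow, map_inv₀]
    exact hb' W₀ hW₀
  have hab1 : 1 ≤ V.valuation (a' * b') := not_lt.1 hab
  have ha0 : a' ≠ 0 := by
    rintro rfl
    rw [zero_mul, map_zero] at hab1
    exact absurd hab1 (not_le.2 zero_lt_one)
  refine ⟨a', ha0, hA, ?_⟩
  have e : (a' ^ p * U) * (b' ^ p * U⁻¹) = (a' * b') ^ p := by
    field_simp
    rw [mul_pow]
  rw [← ValuationSubring.valuation_le_one_iff] at hA hB ⊢
  have h5 : 1 ≤ V.valuation (a' ^ p * U) * V.valuation (b' ^ p * U⁻¹) := by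
    rw [← map_mul, e, map_pow]
    exact one_le_pow_of_one_le' hab1 p
  have h6 : 1 ≤ V.valuation (a' ^ p * U) :=
    h5.trans ((mul_le_mul_right hB _).trans (mul_one _).le)
  rw [map_inv₀]
  exact inv_le_one_of_one_le₀ h6

end Cert

end Fermat.Agent.LP.PL
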