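import Mathlib

/-!
# LP-PL-LOC (S44), part (C)+(D), file `Val` (Mathlib only): extension of valuation subrings

* `Loc2_exists_ext` : a valuation subring extends along a field homomorphism.
* `Loc2_exists_ext_pair` : a pair `V ≤ 𝒪` extends to a pair `V' ≤ 𝒪'`.
* `Loc2_mem_of_isIntegral` : valuation subrings are integrally closed.
-/

set_option autoImplicit false

namespace Fermat.Agent.LP.PL

variable {F E : Type*} [Field F] [Field E]

/-- Every valuation subring of `F` extends to `E` (`IsLocalRing.exists_factor_valuationRing`; copy the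
proof of `Fermat.Agent.GR.D.exists_valuationSubring_extending`, file `GR/D/HorizDescent.lean`). -/
theorem Loc2_exists_ext (ι : F →+* E) (V : ValuationSubring F) :
    ∃ V' : ValuationSubring E, ∀ x : F, ι x ∈ V' ↔ x ∈ V := by
  obtain ⟨V', hV', hloc⟩ := IsLocalRing.exists_factor_valuationRing (ι.comp V.subtype)
  refine ⟨V', fun x => ⟨fun hx => ?_, fun hx => hV' ⟨x, hx⟩⟩⟩
  by_contra hxV
  have hx0 : x ≠ 0 := fun h => hxV (h ▸ V.zero_mem)
  have hinv : x⁻¹ ∈ V := (V.mem_or_inv_mem x).resolve_left hxV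
  have hunit : IsUnit (((ι.comp V.subtype).codRestrict V'.toSubring hV') ⟨x⁻¹, hinv⟩) := by
    refine isUnit_iff_exists_inv.2 ⟨⟨ι x, hx⟩, ?_⟩
    apply Subtype.ext
    show ι x⁻¹ * ι x = 1
    rw [← map_mul, inv_mul_cancel₀ hx0, map_one]
  have h2 := hloc.map_nonunit _ hunit
  obtain ⟨y, hy⟩ := isUnit_iff_exists_inv.1 h2
  apply hxV
  have hy' : x⁻¹ * (y : F) = 1 := congrArg Subtype.val hy
  have : (y : F) = x := by
    field_simp at hy'
    exact hy'
  rw [← this]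
  exact y.2

/-- `x ∈ V.nonunits ↔ x = 0 ∨ x⁻¹ ∉ V`. -/
theorem Loc2_mem_nonunits_iff {V : ValuationSubring E} {x : E} :
    x ∈ V.nonunits ↔ x = 0 ∨ x⁻¹ ∉ V := by
  rw [ValuationSubring.mem_nonunits_iff, ← ValuationSubring.valuation_le_one_iff]
  rcases eq_or_ne x 0 with rfl | hx0
  · simp
  · have hv : V.valuation x ≠ 0 := (Valuation.ne_zero_iff _).2 hx0
    rw [map_inv₀, not_le, one_lt_inv₀ (zero_lt_iff.2 hv)]
    simp [hx0]

/-- `x ∈ V`, `x⁻¹ ∈ V`, `y ∈ V.nonunits` ... : a unit is not a nonunit. -/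
theorem Loc2_not_mem_nonunits {V : ValuationSubring E} {x : E} (hx0 : x ≠ 0) (hx : x⁻¹ ∈ V) :
    x ∉ V.nonunits := by
  rw [Loc2_mem_nonunits_iff]
  rintro (h | h)
  · exact hx0 h
  · exact h hx

theorem Loc2_mem_nonunits_comap (ι : F →+* E) (V : ValuationSubring E) (x : F) :
    x ∈ (V.comap ι).nonunits ↔ ι x ∈ V.nonunits := by
  rw [Loc2_mem_nonunits_iff, Loc2_mem_nonunits_iff, ValuationSubring.mem_comap, map_inv₀,
    map_eq_zero]

/-- The overring `V' · ι (𝒪ˣ)` of `V'`: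
`{x | ∃ u, u ≠ 0 ∧ u ∈ 𝒪 ∧ u⁻¹ ∈ 𝒪 ∧ x * ι u ∈ V'}`.  It is closed under addition because for two units
`u, u'` of `𝒪` one of `u / u'`, `u' / u` lies in `V` (so `x * ι u' = (x * ι u) * ι (u' / u) ∈ V'`); it
contains `V'` (`u = 1`), so it is a valuation subring.  `ι x ∈ 𝒪' → x * u ∈ V ≤ 𝒪 → x ∈ 𝒪`; conversely
`x ∈ 𝒪`: either `x ∈ V` or `x⁻¹ ∈ V ≤ 𝒪` and `u = x⁻¹` works. -/
theorem Loc2_exists_ext_pair (ι : F →+* E) {V 𝒪 : ValuationSubring F} (h : V ≤ 𝒪) :
    ∃ V' 𝒪' : ValuationSubring E, V' ≤ 𝒪' ∧ (∀ x : F, ι x ∈ V' ↔ x ∈ V) ∧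
      ∀ x : F, ι x ∈ 𝒪' ↔ x ∈ 𝒪 := by
  obtain ⟨V', hV'⟩ := Loc2_exists_ext ι V
  -- change of the unit
  have key : ∀ (x : E) (u u' : F), u ≠ 0 → u' * u⁻¹ ∈ V → x * ι u ∈ V' → x * ι u' ∈ V' := by
    intro x u u' hu huu hx
    have h1 : x * ι u' = (x * ι u) * ι (u' * u⁻¹) := by
      rw [mul_assoc, ← map_mul]
      congr 2
      field_simp
    rw [h1]
    exact V'.mul_mem _ _ hx ((hV' _).2 huu)
  let S : Subring E :=
    { carrier := {x | ∃ u : F, u ≠ 0 ∧ u ∈ 𝒪 ∧ u⁻¹ ∈ 𝒪 ∧ x * ι u ∈ V'}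
      mul_mem' := by
        rintro x y ⟨u, hu0, hu, hui, hx⟩ ⟨u', hu0', hu', hui', hy⟩
        refine ⟨u * u', mul_ne_zero hu0 hu0', 𝒪.mul_mem _ _ hu hu', ?_, ?_⟩
        · rw [mul_inv]
          exact 𝒪.mul_mem _ _ hui hui'
        · have : x * y * ι (u * u') = (x * ι u) * (y * ι u') := by
            rw [map_mul]; ring
          rw [this]
          exact V'.mul_mem _ _ hx hy
      one_mem' := ⟨1, one_ne_zero, 𝒪.one_mem, by rw [inv_one]; exact 𝒪.one_mem, by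
        rw [map_one, mul_one]; exact V'.one_mem⟩
      add_mem' := by
        rintro x y ⟨u, hu0, hu, hui, hx⟩ ⟨u', hu0', hu', hui', hy⟩
        rcases V.mem_or_inv_mem (u' * u⁻¹) with hc | hc
        · refine ⟨u', hu0', hu', hui', ?_⟩
          rw [add_mul]
          exact V'.add_mem _ _ (key x u u' hu0 hc hx) hy
        · refine ⟨u, hu0, hu, hui, ?_⟩
          rw [add_mul]
          refine V'.add_mem _ _ hx (key y u' u hu0' ?_ hy)
          rwa [mul_inv, inv_inv, mul_comm] at hc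
      zero_mem' := ⟨1, one_ne_zero, 𝒪.one_mem, by rw [inv_one]; exact 𝒪.one_mem, by
        rw [zero_mul]; exact V'.zero_mem⟩
      neg_mem' := by
        rintro x ⟨u, hu0, hu, hui, hx⟩
        refine ⟨u, hu0, hu, hui, ?_⟩
        rw [neg_mul]
        exact V'.neg_mem _ hx }
  have hVS : ∀ x ∈ V', x ∈ S := fun x hx =>
    ⟨1, one_ne_zero, 𝒪.one_mem, by rw [inv_one]; exact 𝒪.one_mem, by rwa [map_one, mul_one]⟩
  let 𝒪' : ValuationSubring E :=
    { S with
      mem_or_inv_mem' := fun x => (V'.mem_or_inv_mem x).imp (hVS _) (hVS _) }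
  refine ⟨V', 𝒪', fun x hx => hVS x hx, hV', fun x => ⟨?_, fun hx => ?_⟩⟩
  · rintro ⟨u, hu0, hu, hui, hx⟩
    rw [← map_mul, hV'] at hx
    have h1 : x = (x * u) * u⁻¹ := by field_simp
    rw [h1]
    exact 𝒪.mul_mem _ _ (h hx) hui
  · by_cases hxV : x ∈ V
    · exact hVS _ ((hV' x).2 hxV)
    · have hx0 : x ≠ 0 := fun e => hxV (e ▸ V.zero_mem)
      have hinv : x⁻¹ ∈ V := (V.mem_or_inv_mem x).resolve_left hxV
      refine ⟨x⁻¹, inv_ne_zero hx0, h hinv, by rwa [inv_inv], ?_⟩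
      rw [← map_mul, mul_inv_cancel₀ hx0, map_one]
      exact V'.one_mem

/-- A valuation subring contains every element which is integral over a subring contained in it
(if `x ∉ V` then `x⁻¹ ∈ V.nonunits`; divide the monic equation by `x ^ (n-1)`; or
`IsIntegrallyClosed V` + `IsIntegral.tower_top`/`IsIntegral.map`). -/
theorem Loc2_mem_of_isIntegral {A : Type*} [CommRing A] (f : A →+* E) (V : ValuationSubring E)
    (hf : ∀ a, f a ∈ V) {x : E} (hx : f.IsIntegralElem x) : x ∈ V := by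
  let φ : A →+* V := f.codRestrict V.toSubring hf
  have h2 : IsIntegral V x := by
    obtain ⟨p, hp, hp0⟩ := hx
    refine ⟨p.map φ, hp.map _, ?_⟩
    rw [Polynomial.eval₂_map]
    exact hp0
  obtain ⟨y, hy⟩ := IsIntegrallyClosed.isIntegral_iff.1 h2
  rw [← hy]
  exact y.2

/-- `x ^ n ∈ V → x ∈ V`. -/
theorem Loc2_mem_of_pow_mem {V : ValuationSubring E} {x : E} {n : ℕ} (hn : n ≠ 0)
    (hx : x ^ n ∈ V) : x ∈ V := by
  rw [← ValuationSubring.valuation_le_one_iff] at hx ⊢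
  rw [map_pow] at hx
  exact (pow_le_one_iff hn).1 hx

/-- `x ^ n ∈ V.nonunits → x ∈ V.nonunits`. -/
theorem Loc2_mem_nonunits_of_pow {V : ValuationSubring E} {x : E} {n : ℕ}
    (hx : x ^ n ∈ V.nonunits) : x ∈ V.nonunits := by
  rw [ValuationSubring.mem_nonunits_iff] at hx ⊢
  rw [map_pow] at hx
  by_contra hc
  exact absurd hx (not_lt.2 (one_le_pow_of_one_le' (not_lt.1 hc) n))

end Fermat.Agent.LP.PL
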